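/-
TEAM TW56 -> S56, block [IND] (architect helper87).  File 2: INTERFACE.

Every `Stmt_xxx` is one work package: prove `theorem stmt_xxx : (deps →) Stmt_xxx` in the file named
in the task.  Vocabulary: `Ind/Defs.lean`, `CFT/Pos/Dev.lean` (IsSES, GoodW, tw, perm, twB, twSub,
twIncl, kerRep, ...).  NEVER edit a file under `Fermat/Agent/CFT`.  Do NOT import
`CFT/Pos/RepDefs.lean` (name clash with `Dev.lean`).

GOAL: `Stmt_IND` (= `Loc.Stmt_INDproj`).
-/
import Fermat.Agent.TW56.Ind.Defs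

set_option autoImplicit false

noncomputable section

namespace Fermat.Agent.TW56.Ind

open _root_.Fermat.Agent.CFT.Pos Module CategoryTheory Polynomial

/-! ## Block A : generalities -/

/-- A1. additive functions: zero module, isomorphisms.  [`0 → 0 → 0 → 0 → 0`; `0 → X → Y → 0 → 0`;
copy `SubAdd.zero`, `SubAdd.iso` of `Dev.lean`.] -/
def Stmt_addBasic : Prop :=
  ∀ (k : Type) [Field k] (G : Type) [Group G] (W : Subgroup G) (f : Rep.{0} k G → ℤ), IsAdd W f →
    (∀ Z : Rep.{0} k G, Subsingleton Z → f Z = 0) ∧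
    (∀ (X Y : Rep.{0} k G) (e : X ⟶ Y), Function.Bijective e.hom → GoodW W X → GoodW W Y →
      f X = f Y)

/-- A2. a non zero good module has a simple submodule.  [A stable `B ≠ ⊥` of minimal `finrank`;
`S = Rep.subrepresentation M B _`, `Q = Rep.quotient M B _`, `Rep.mkQ`.] -/
def Stmt_simpleSub : Prop :=
  ∀ (k : Type) [Field k] (G : Type) [Group G] (W : Subgroup G) (M : Rep.{0} k G), GoodW W M →
    Nontrivial M → ∃ (S Q : Rep.{0} k G) (i : S ⟶ M) (q : M ⟶ Q), IsSES i q ∧ IsSimp S ∧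
      GoodW W S ∧ GoodW W Q ∧ finrank k Q < finrank k M

/-- A3. the characteristic polynomial is multiplicative in short exact sequences.
[Choose a linear section `s` of `q`; `X₁ × X₃ ≃ₗ X₂`, `(a, c) ↦ i a + s c`; in bases of `X₁`, `X₃` the
matrix of `g` is `Matrix.fromBlocks A B 0 D`: `Matrix.charpoly_fromBlocks_zero₂₁`,
`LinearMap.charpoly_toMatrix`, `LinearEquiv.charpoly_conj`.] -/
def Stmt_cpSES : Prop :=
  ∀ (k : Type) [Field k] (G : Type) [Group G] (X₁ X₂ X₃ : Rep.{0} k G) (i : X₁ ⟶ X₂)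
    (q : X₂ ⟶ X₃), Module.Finite k X₁ → Module.Finite k X₂ → Module.Finite k X₃ → IsSES i q →
    ∀ g, cp X₂ g = cp X₁ g * cp X₃ g

/-- A3'. invariance under isomorphisms; the zero module.  [`LinearEquiv.charpoly_conj`.] -/
def Stmt_cpIso : Prop :=
  ∀ (k : Type) [Field k] (G : Type) [Group G],
    (∀ (X Y : Rep.{0} k G) (e : X ⟶ Y), Function.Bijective e.hom → Module.Finite k X →
      Module.Finite k Y → ∀ g, cp X g = cp Y g) ∧
    (∀ Z : Rep.{0} k G, Subsingleton Z → ∀ g, cp Z g = 1)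

/-- A4. over `𝔽_p`: `g` and `g ^ p` have the same characteristic polynomial.
[`ZMod.charpoly_pow_card`, `LinearMap.charpoly_toMatrix` / `LinearMap.charpoly_def`,
`LinearMap.toMatrix_pow`, `map_pow`.] -/
def Stmt_cpPow : Prop :=
  ∀ (p : ℕ) [Fact p.Prime] (G : Type) [Group G] (X : Rep.{0} (ZMod p) G) (g : G) (a : ℕ),
    cp X (g ^ p ^ a) = cp X g

/-- A5. some `g ^ p ^ a` is `p`-regular.  [`n = Nat.card (G ⧸ W) = p ^ a * m`, `p ∤ m`
(`Nat.exists_eq_pow_mul_and_not_dvd`); `(g ^ p ^ a) ^ m = 1` in `G ⧸ W`, `orderOf_dvd_of_pow_eq_one`.] -/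
def Stmt_preg : Prop :=
  ∀ (p : ℕ) [Fact p.Prime] (G : Type) [Group G] (W : Subgroup G) [W.Normal] [W.FiniteIndex] (g : G),
    ∃ a : ℕ, PReg p W (g ^ p ^ a)

/-! ## Block B : Brauer-Nesbitt -/

/-- B1. a complete finite family of simple modules.
[`R = perm W` is a finite set.  `ι₁ = {K : Submodule k R // Stable R K ∧ IsSimp (Rep.quotient R K _)}`,
a finite type; setoid `K ~ K'` iff there is a bijective morphism between the quotients; `ι` = the
quotient, `T x = Rep.quotient R x.out _`.  Complete: for `S` simple and `0 ≠ x ∈ S` the morphism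
`R ⟶ S`, `φ ↦ ∑_c φ c • S.ρ c.out x` is onto; `K` = its kernel.  Inverse and composition of bijective
morphisms are needed.] -/
def Stmt_fam : Prop :=
  ∀ (p : ℕ) [Fact p.Prime] (G : Type) [Group G] (W : Subgroup G) [W.Normal] [W.FiniteIndex],
    ∃ (ι : Type) (_ : Fintype ι) (T : ι → Rep.{0} (ZMod p) G), SimpFam W T ∧ Complete W T

/-- B2. multiplicity vectors.  [Strong induction on `finrank M`: A1, A2, A3, A3', completeness.] -/
def Stmt_mult : Prop :=
  ∀ (k : Type) [Field k] (G : Type) [Group G] (W : Subgroup G) (ι : Type) [Fintype ι]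
    (T : ι → Rep.{0} k G), SimpFam W T → Complete W T → ∀ M : Rep.{0} k G, GoodW W M →
    ∃ m : ι → ℕ, (∀ f : Rep.{0} k G → ℤ, IsAdd W f → f M = ∑ i, (m i : ℤ) * f (T i)) ∧
      (∀ g, cp M g = ∏ i, cp (T i) g ^ m i)

/-- B3. a simple module over `𝔽_p[G]` has an endomorphism of non zero trace in the bicommutant.
[`D` = the ring of equivariant endomorphisms: a finite division ring (Schur), hence a field
(`littleWedderburn`).  `T` is a `D`-vector space; basis `b`, index `i₀`; `α : D → T`, `x ↦ x • b i₀`,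
`β : T → D` the coordinate; `φ_d = α ∘ (· * d) ∘ β` is `D`-linear;
`trace (α ∘ (· * d) ∘ β) = trace ((· * d) ∘ β ∘ α) = Algebra.trace 𝔽_p D d`
(`LinearMap.trace_comp_comm'`), and `Algebra.trace_ne_zero` / `Algebra.trace_surjective` (finite fields
are separable).  It may be convenient to use `Representation.asModule`,
`Representation.IsIrreducible`, `Module.End (MonoidAlgebra _ G) _`.] -/
def Stmt_traceElt : Prop :=
  ∀ (p : ℕ) [Fact p.Prime] (G : Type) [Group G] (T : Rep.{0} (ZMod p) G),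
    Module.Finite (ZMod p) T → IsSimp T →
    ∃ φ : T →ₗ[ZMod p] T,
      (∀ d : T →ₗ[ZMod p] T, (∀ g, d ∘ₗ T.ρ g = T.ρ g ∘ₗ d) → φ ∘ₗ d = d ∘ₗ φ) ∧
      LinearMap.trace (ZMod p) T φ ≠ 0

/-- B4. DENSITY.  [`M = Π j, T j` as a module over `R = MonoidAlgebra k G` (`Representation.asModule`)
is semisimple.  Every `R`-endomorphism of `M` is diagonal (Schur + `noniso`: a non zero morphism
between simple modules is bijective).  So `single i ∘ φ ∘ proj i` commutes with `End_R M`;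
Mathlib's `jacobson_density` with `s` = a finite spanning set.] -/
def Stmt_dens : Prop :=
  ∀ (k : Type) [Field k] (G : Type) [Group G] (W : Subgroup G) (ι : Type) [Fintype ι]
    (T : ι → Rep.{0} k G), SimpFam W T → ∀ (i : ι) (φ : T i →ₗ[k] T i),
    (∀ d : T i →ₗ[k] T i, (∀ g, d ∘ₗ (T i).ρ g = (T i).ρ g ∘ₗ d) → φ ∘ₗ d = d ∘ₗ φ) →
    ∃ a : G →₀ k, (a.sum fun g c => c • (T i).ρ g) = φ ∧
      ∀ j, j ≠ i → (a.sum fun g c => c • (T j).ρ g) = 0

/-- B5. LINEAR INDEPENDENCE OF THE TRACE CHARACTERS.  [B3, B4: apply `∑_g a g • ·` to the relation.] -/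
def Stmt_LI : Prop :=
  ∀ (p : ℕ) [Fact p.Prime] (G : Type) [Group G] (W : Subgroup G) (ι : Type) [Fintype ι]
    (T : ι → Rep.{0} (ZMod p) G), SimpFam W T → ∀ c : ι → ZMod p,
    (∀ g, ∑ i, c i * LinearMap.trace (ZMod p) (T i) ((T i).ρ g) = 0) → ∀ i, c i = 0

/-- B6. the characteristic polynomials determine the multiplicities.
[Strong induction on `∑ (m i + m' i)`.  `Polynomial.nextCoeff` of a product of monic polynomials is the
sum (`Polynomial.Monic.nextCoeff_mul`, `Monic.nextCoeff_pow`, `Polynomial.Monic.nextCoeff_prod`?),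
`nextCoeff charpoly = - trace` (`Matrix.trace_eq_neg_charpoly_nextCoeff` /
`Matrix.trace_eq_neg_charpoly_coeff`, `LinearMap.trace_eq_matrix_trace`).  B5: `m i ≡ m' i mod p`.
`m i = r i + p * a i`, `m' i = r i + p * a' i`; cancel `∏ cp ^ r i ≠ 0`; `x ^ p = y ^ p → x = y` in
`(ZMod p)[X]` (`frobenius_inj`); induction hypothesis for `a, a'`.] -/
def Stmt_num : Prop :=
  ∀ (p : ℕ) [Fact p.Prime] (G : Type) [Group G] (W : Subgroup G) (ι : Type) [Fintype ι]
    (T : ι → Rep.{0} (ZMod p) G), SimpFam W T → ∀ m m' : ι → ℕ,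
    (∀ g, ∏ i, cp (T i) g ^ m i = ∏ i, cp (T i) g ^ m' i) → m = m'

/-- B7. **BRAUER-NESBITT**, virtual form.
[B1, B2 for every `M j`; `m⁺ i = ∑_j e j * m_j i`, `m⁻ i = ∑_j e' j * m_j i`;
`∏_i cp (T i) g ^ m⁺ i = ∏_j cp (M j) g ^ e j`; for arbitrary `g` pass to `g ^ p ^ a` (A4, A5); B6.] -/
def Stmt_BN : Prop :=
  ∀ (p : ℕ) [Fact p.Prime] (G : Type) [Group G] (W : Subgroup G) [W.Normal] [W.FiniteIndex]
    (J : Type) [Fintype J] (M : J → Rep.{0} (ZMod p) G) (e e' : J → ℕ), (∀ j, GoodW W (M j)) →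
    (∀ g, PReg p W g → ∏ j, cp (M j) g ^ e j = ∏ j, cp (M j) g ^ e' j) →
    ∀ f : Rep.{0} (ZMod p) G → ℤ, IsAdd W f →
      ∑ j, (e j : ℤ) * f (M j) = ∑ j, (e' j : ℤ) * f (M j)

/-! ## Block C : permutations -/

/-- C1. two permutations of finite sets all of whose powers have the same number of fixed points
are conjugate.
[Induction on `#A`.  `n = 0`: `#A = #B`.  Let `d` be the smallest period (`Function.minimalPeriod`)
occurring in `A` or `B`; `nfix (σ ^ d)` = number of points of period `d` (no smaller period divides),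
so both have a point of period `d`; remove the two orbits (`nfix` of the `n`-th power drops by `d` if
`d ∣ n`, by `0` otherwise) and glue.  Alternatively `Equiv.Perm.isConj_iff_cycleType_eq` after
transport to one set.] -/
def Stmt_permIso : Prop :=
  ∀ (A B : Type) [Finite A] [Finite B] (σ : Equiv.Perm A) (τ : Equiv.Perm B),
    (∀ n : ℕ, nfix (σ ^ n) = nfix (τ ^ n)) → ∃ e : A ≃ B, ∀ a, e (σ a) = τ (e a)

/-- C2. `opU` and conjugation.  [`LinearEquiv.funCongrLeft`, `LinearEquiv.charpoly_conj`.] -/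
def Stmt_opConj : Prop :=
  ∀ (k : Type) [Field k] (V : Type) [AddCommGroup V] [Module k V] [Module.Finite k V]
    (u : V →ₗ[k] V) (A B : Type) [Finite A] [Finite B] (σ : Equiv.Perm A) (τ : Equiv.Perm B)
    (e : A ≃ B), (∀ a, e (σ a) = τ (e a)) → (opU σ u).charpoly = (opU τ u).charpoly

/-- C3. `opU` and disjoint unions.
[`(Σ j, B j) → V ≃ₗ Π j, (B j → V)` (`LinearEquiv.piCurry` / `Equiv.piCurry`), and the characteristic
polynomial of a diagonal map of a finite product is the product: induction on `J`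
(`Fintype.induction_empty_option` or `Finset.induction`) with `LinearMap.charpoly_prodMap`; or block
diagonal matrices: `Matrix.blockDiagonal'`, `Matrix.det_blockDiagonal'`.] -/
def Stmt_opSigma : Prop :=
  ∀ (k : Type) [Field k] (V : Type) [AddCommGroup V] [Module k V] [Module.Finite k V]
    (u : V →ₗ[k] V) (J : Type) [Fintype J] (B : J → Type) [∀ j, Finite (B j)]
    (τ : ∀ j, Equiv.Perm (B j)),
    (opU (Equiv.Perm.sigmaCongrRight τ) u).charpoly = ∏ j, (opU (τ j) u).charpoly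

/-- C4. `opU` and products.  [currying `(A × B → V) ≃ₗ (A → B → V)`, `LinearEquiv.charpoly_conj`.] -/
def Stmt_opProd : Prop :=
  ∀ (k : Type) [Field k] (V : Type) [AddCommGroup V] [Module k V] [Module.Finite k V]
    (u : V →ₗ[k] V) (A B : Type) [Finite A] [Finite B] (σ : Equiv.Perm A) (τ : Equiv.Perm B),
    (opU σ (opU τ u)).charpoly = (opU (σ.prodCongr τ) u).charpoly

/-- C5. the characteristic polynomial of `g` on `T^j X`.
[Induction on `j`.  `mapRep_ρ_eq_opU`, C4, C2 with `A × (Fin j → A) ≃ (Fin (j+1) → A)`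
(`Fin.consEquiv` / `Fin.insertNthEquiv`); `j = 0`: `(Fin 0 → A) → X ≃ₗ X`.  State and prove the
induction for `(itT A X j).ρ g` conjugate to `opU ..` by a linear equivalence, this also gives the
finiteness.] -/
def Stmt_cpIt : Prop :=
  ∀ (k : Type) [Field k] (G : Type) [Group G] (A : Type) [Finite A] [MulAction G A]
    (X : Rep.{0} k G) [Module.Finite k X] (g : G) (j : ℕ),
    cp (itT A X j) g
      = (opU (permArrow (MulAction.toPerm g : Equiv.Perm A) j) (X.ρ g)).charpoly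

/-- C6. numbers of fixed points.  [`(sigmaCongrRight τ) ^ n = sigmaCongrRight (τ ^ n)`,
`(permArrow σ j) ^ n = permArrow (σ ^ n) j`; `Nat.card_sigma`, `Nat.card_fun` / `Nat.card_pi`; a
function is fixed iff all its values are.] -/
def Stmt_nfix : Prop :=
  (∀ (J : Type) [Fintype J] (B : J → Type) [∀ j, Finite (B j)] (τ : ∀ j, Equiv.Perm (B j)) (n : ℕ),
    nfix ((Equiv.Perm.sigmaCongrRight τ) ^ n) = ∑ j, nfix ((τ j) ^ n)) ∧
  (∀ (A : Type) [Finite A] (σ : Equiv.Perm A) (j n : ℕ),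
    nfix ((permArrow σ j) ^ n) = nfix (σ ^ n) ^ j)

/-- C7. **COMB** (linear algebra form).  `σ` a permutation of a finite set `A` with `N` elements all of
whose powers have a fixed point, `e_j` the coefficients of `∏_{v=1}^N (X - v)`.
[`J⁺ = Σ j : Fin (N+1), Fin (e_j).toNat`, `B⁺ x = (Fin x.1 → A)`, `τ⁺ x = permArrow σ x.1`; the same
with `(- e_j).toNat`.  C3: the two sides are the characteristic polynomials of `opU` on `Σ x, B⁺ x`,
`Σ x, B⁻ x` (`Fintype.prod_sigma`, `Finset.prod_const`).  C6: the number of fixed points of the `n`-th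
power is `∑_j (e_j).toNat * t ^ j`, `t = nfix (σ ^ n) ∈ [1, N]`, and `(polyP N).eval t = 0`
(`Polynomial.eval_eq_sum_range`, `natDegree (polyP N) = N`).  C1, C2.] -/
def Stmt_comb : Prop :=
  ∀ (k : Type) [Field k] (V : Type) [AddCommGroup V] [Module k V] [Module.Finite k V]
    (u : V →ₗ[k] V) (A : Type) [Finite A] (σ : Equiv.Perm A), (∀ n : ℕ, ∃ a, (σ ^ n) a = a) →
    ∏ j : Fin (Nat.card A + 1),
        (opU (permArrow σ j) u).charpoly ^ ((polyP (Nat.card A)).coeff j).toNat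
      = ∏ j : Fin (Nat.card A + 1),
        (opU (permArrow σ j) u).charpoly ^ (- (polyP (Nat.card A)).coeff j).toNat

/-! ## Block P : `f (tw H Y) = 0` -/

/-- P1. MASCHKE for `H`-stable subspaces.
[`m = W.relIndex H` is invertible in `𝔽_p`.  `π₀` a linear projection of `Y` onto `B₁`;
`π = m⁻¹ ∑_{h ∈ H/W} ρ(h) π₀ ρ(h)⁻¹` (well defined: `W` is normal and acts trivially), `B₂ = B ⊓ ker π`.
Or Mathlib's Maschke (`MonoidAlgebra.Submodule.exists_isCompl`) for the finite group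
`H ⧸ W.subgroupOf H`.] -/
def Stmt_maschke : Prop :=
  ∀ (p : ℕ) [Fact p.Prime] (G : Type) [Group G] (W : Subgroup G) [W.Normal] [W.FiniteIndex]
    (H : Subgroup G), W ≤ H → ¬ p ∣ W.relIndex H → ∀ Y : Rep.{0} (ZMod p) G, TrivOn W Y →
    ∀ B₁ B : Submodule (ZMod p) Y, B₁ ≤ B → HStable H Y B₁ → HStable H Y B →
    ∃ B₂ : Submodule (ZMod p) Y, B₂ ≤ B ∧ HStable H Y B₂ ∧ B₁ ⊓ B₂ = ⊥ ∧ B₁ ⊔ B₂ = B

/-- P2. `Ind B = Ind B₁ ⊕ Ind B₂`.
[`q F (gH) = ρ(g) π₂ (ρ(g)⁻¹ F(gH))`, `π₂` the projection of `B = B₁ ⊕ B₂` onto `B₂`, which commutes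
with `H`.  It is convenient to define `q F c` with `c.out`.] -/
def Stmt_twSplit : Prop :=
  ∀ (k : Type) [Field k] (G : Type) [Group G] (H : Subgroup G) (Y : Rep.{0} k G)
    (B₁ B₂ B : Submodule k Y) (h₁ : B₁ ≤ B), HStable H Y B₁ → HStable H Y B₂ → B₁ ⊓ B₂ = ⊥ →
    B₁ ⊔ B₂ = B → ∃ q : twB H Y B ⟶ twB H Y B₂, IsSES (twIncl H Y h₁) q

/-- P3. `Ind` of a cyclic `H`-module is a retract of `perm W`.
[`r φ (xH) = ∑_{c ∈ G/W, c ↦ xH} φ c • ρ(c) b`.  For a linear form `λ` on `Y`: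
`i_λ F (xW) = λ (ρ(x)⁻¹ F(xH))` is equivariant, and `r (i_λ F) (xH) = ρ(x) Θ (ρ(x)⁻¹ F (xH))`,
`Θ y = ∑_{h ∈ H/W} λ (ρ(h)⁻¹ y) • ρ(h) b`.  Choice of `λ` with `Θ = id` on `B₁`: `s⁰` a linear section
of `(H/W → 𝔽_p) → B₁`, `φ ↦ ∑_h φ h • ρ(h) b`; `λ y = m⁻¹ ∑_{k ∈ H/W} s⁰ (ρ(k) y) k` on `B₁`, extended
linearly to `Y`.] -/
def Stmt_cycRetract : Prop :=
  ∀ (p : ℕ) [Fact p.Prime] (G : Type) [Group G] (W : Subgroup G) [W.Normal] [W.FiniteIndex]
    (H : Subgroup G), W ≤ H → ¬ p ∣ W.relIndex H → ∀ Y : Rep.{0} (ZMod p) G, TrivOn W Y →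
    ∀ b : Y, ∃ (i : twB H Y (Submodule.span (ZMod p) {y | ∃ h ∈ H, Y.ρ h b = y}) ⟶ perm W)
      (r : perm W ⟶ twB H Y (Submodule.span (ZMod p) {y | ∃ h ∈ H, Y.ρ h b = y})),
      ∀ x, r.hom (i.hom x) = x

/-- P4. `f (tw H Y) = 0` when `[H : W]` is prime to `p`.
[Strong induction on `finrank B` for `H`-stable `B`: `f (twB H Y B) = 0`.  `B = ⊥`: subsingleton, A1.
Otherwise `0 ≠ b ∈ B`, `B₁` = the span of `H b` (`≤ B`, `H`-stable, `≠ ⊥`), P1, P2, P3;
`finrank B₂ < finrank B`.  Finally `twVal_top_bijective`, A1; `goodW_twB`, `goodW_tw`.] -/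
def Stmt_twProj : Prop :=
  ∀ (p : ℕ) [Fact p.Prime] (G : Type) [Group G] (W : Subgroup G) [W.Normal] [W.FiniteIndex]
    (f : Rep.{0} (ZMod p) G → ℤ), IsAdd W f → KillsProj W f →
    ∀ H : Subgroup G, W ≤ H → ¬ p ∣ W.relIndex H → ∀ Y : Rep.{0} (ZMod p) G, GoodW W Y →
    f (tw H Y) = 0

/-- P5. `Map(⨆_y G/H_y, Y)` is good, and `f` of it is the sum.
[For a finset `s` of `κ` let `M_s` be the subrepresentation of the functions vanishing on the components
`y ∉ s`.  `Finset.induction`: `0 → M_s → M_{insert y s} → tw (H y) Y → 0` (restriction to the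
component `y`).  `M_∅` is zero, `M_univ` is everything.  A1.] -/
def Stmt_mapSigma : Prop :=
  ∀ (k : Type) [Field k] (G : Type) [Group G] (W : Subgroup G) [W.Normal] [W.FiniteIndex]
    (κ : Type) [Fintype κ] (H : κ → Subgroup G), (∀ y, W ≤ H y) → ∀ Y : Rep.{0} k G, GoodW W Y →
    GoodW W (mapRep (Σ y, G ⧸ H y) Y) ∧
    ∀ f : Rep.{0} k G → ℤ, IsAdd W f → f (mapRep (Σ y, G ⧸ H y) Y) = ∑ y, f (tw (H y) Y)

/-- P6. the subgroups `H_c`.  [`Subgroup.relIndex`, `Subgroup.index_comap`, `Nat.card_zpowers`: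
`[H_c : W] = orderOf c`.  The point `⟨⟨gW, _⟩, 1 H⟩` is fixed by all powers of `g`.] -/
def Stmt_Hc : Prop :=
  ∀ (p : ℕ) [Fact p.Prime] (G : Type) [Group G] (W : Subgroup G) [W.Normal] [W.FiniteIndex],
    (∀ c : G ⧸ W, W ≤ Hc W c ∧ W.relIndex (Hc W c) = orderOf c) ∧
    (∀ g : G, PReg p W g → ∀ n : ℕ, ∃ a : setA p W, ((MulAction.toPerm g : Equiv.Perm _) ^ n) a = a)

/-! ## The theorem -/

/-- **IND, Cartan form.**
[`A = setA p W`, `N = Nat.card A`, `M j = itT A X j` (`j : Fin (N+1)`), good by P5.  P4, P5, P6: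
`f (M j) = 0` for `j ≥ 1`.  C5, C7, P6: the hypothesis of B7 with `e j = (coeff j).toNat`,
`e' j = (- coeff j).toNat`.  So `coeff 0 * f X = 0`, and `coeff 0 = ∏ (-v) ≠ 0`.] -/
def Stmt_IND : Prop :=
  ∀ (p : ℕ) [Fact p.Prime] (G : Type) [Group G] (W : Subgroup G) [W.Normal] [W.FiniteIndex]
    (f : Rep.{0} (ZMod p) G → ℤ), IsAdd W f → KillsProj W f →
    ∀ X : Rep.{0} (ZMod p) G, GoodW W X → f X = 0

end Fermat.Agent.TW56.Ind

end
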