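/-
TEAM TW56 -> S56, block [IND], A1 / A3' : additive functions and characteristic polynomials,
zero module and isomorphisms.
-/
import Fermat.Agent.TW56.Ind.Interface

set_option autoImplicit false

noncomputable section

namespace Fermat.Agent.TW56.Ind

open _root_.Fermat.Agent.CFT.Pos Module CategoryTheory Polynomial

theorem stmt_addBasic : Stmt_addBasic := by
  intro k _ G _ W f hf
  have hzero : ∀ Z : Rep.{0} k G, Subsingleton Z → f Z = 0 := by
    intro Z hZ
    have h := hf Z Z Z (𝟙 Z) (𝟙 Z) (goodW_of_subsingleton W Z) (goodW_of_subsingleton W Z)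
      (goodW_of_subsingleton W Z)
      ⟨fun _ _ _ => Subsingleton.elim _ _, fun x => ⟨x, Subsingleton.elim _ _⟩,
        fun x => ⟨fun _ => ⟨x, Subsingleton.elim _ _⟩, fun _ => Subsingleton.elim _ _⟩⟩
    omega
  refine ⟨hzero, fun X Y e he hX hY => ?_⟩
  have h := hf X Y zeroRep e (0 : Y ⟶ zeroRep) hX hY (goodW_of_subsingleton W _)
    ⟨he.1, fun x => ⟨0, Subsingleton.elim _ _⟩,
      fun x => ⟨fun _ => he.2 x, fun _ => Subsingleton.elim _ _⟩⟩
  have h0 : f (zeroRep : Rep.{0} k G) = 0 := hzero _ inferInstance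
  omega

theorem stmt_cpIso : Stmt_cpIso := by
  intro k _ G _
  refine ⟨fun X Y e he hX hY g => ?_, fun Z hZ g => ?_⟩
  · rw [cp_eq, cp_eq]
    let E : X ≃ₗ[k] Y := LinearEquiv.ofBijective e.hom.toLinearMap he
    have h : Y.ρ g = E.conj (X.ρ g) := by
      refine LinearMap.ext fun y => ?_
      obtain ⟨x, rfl⟩ := E.surjective y
      rw [LinearEquiv.conj_apply_apply, LinearEquiv.symm_apply_apply]
      exact (Rep.hom_comm_apply e g x).symm
    rw [h, LinearEquiv.charpoly_conj]
  · have : Module.Finite k Z := inferInstance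
    rw [cp_eq]
    have h1 : (Z.ρ g).charpoly.natDegree = 0 := by
      rw [LinearMap.charpoly_natDegree, Module.finrank_zero_of_subsingleton]
    exact (Polynomial.Monic.natDegree_eq_zero (LinearMap.charpoly_monic (Z.ρ g))).1 h1

end Fermat.Agent.TW56.Ind

end

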