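/-
TEAM TW56 -> S56, block [IND].  B7 : Brauer-Nesbitt, virtual form.
-/
import Fermat.Agent.TW56.Ind.Interface

set_option autoImplicit false

noncomputable section

namespace Fermat.Agent.TW56.Ind

open _root_.Fermat.Agent.CFT.Pos Module CategoryTheory Polynomial

/-- regrouping a double product of powers. -/
theorem BN_prod_regroup {R : Type*} [CommMonoid R] {J ι : Type*} [Fintype J] [Fintype ι]
    (x : J → R) (t : ι → R) (m : J → ι → ℕ) (hx : ∀ j, x j = ∏ i, t i ^ m j i) (e : J → ℕ) :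
    ∏ j, x j ^ e j = ∏ i, t i ^ (∑ j, e j * m j i) := by
  calc ∏ j, x j ^ e j = ∏ j, ∏ i, t i ^ (e j * m j i) := by
        refine Finset.prod_congr rfl fun j _ => ?_
        rw [hx j, ← Finset.prod_pow]
        refine Finset.prod_congr rfl fun i _ => ?_
        rw [← pow_mul, mul_comm]
    _ = ∏ i, ∏ j, t i ^ (e j * m j i) := Finset.prod_comm
    _ = ∏ i, t i ^ (∑ j, e j * m j i) := by
        refine Finset.prod_congr rfl fun i _ => ?_
        rw [Finset.prod_pow_eq_pow_sum]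

/-- regrouping a double sum. -/
theorem BN_sum_regroup {J ι : Type*} [Fintype J] [Fintype ι]
    (x : J → ℤ) (t : ι → ℤ) (m : J → ι → ℕ) (hx : ∀ j, x j = ∑ i, (m j i : ℤ) * t i)
    (e : J → ℕ) :
    ∑ j, (e j : ℤ) * x j = ∑ i, ((∑ j, e j * m j i : ℕ) : ℤ) * t i := by
  calc ∑ j, (e j : ℤ) * x j = ∑ j, ∑ i, ((e j * m j i : ℕ) : ℤ) * t i := by
        refine Finset.sum_congr rfl fun j _ => ?_
        rw [hx j, Finset.mul_sum]
        refine Finset.sum_congr rfl fun i _ => ?_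
        push_cast; ring
    _ = ∑ i, ∑ j, ((e j * m j i : ℕ) : ℤ) * t i := Finset.sum_comm
    _ = ∑ i, ((∑ j, e j * m j i : ℕ) : ℤ) * t i := by
        refine Finset.sum_congr rfl fun i _ => ?_
        rw [Nat.cast_sum, Finset.sum_mul]

/-- **B7. BRAUER-NESBITT**, virtual form. -/
theorem stmt_BN (h1 : Stmt_fam) (h2 : Stmt_mult) (h3 : Stmt_num) (h4 : Stmt_cpPow)
    (h5 : Stmt_preg) : Stmt_BN := by
  intro p _ G _ W _ _ J _ M e e' hgood hcp f hf
  obtain ⟨ι, _, T, hS, hC⟩ := h1 p G W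
  choose m hm1 hm2 using fun j => h2 (ZMod p) G W ι T hS hC (M j) (hgood j)
  have key : ∀ (e : J → ℕ) (g : G),
      ∏ j, cp (M j) g ^ e j = ∏ i, cp (T i) g ^ (∑ j, e j * m j i) := fun e g =>
    BN_prod_regroup (fun j => cp (M j) g) (fun i => cp (T i) g) m (fun j => hm2 j g) e
  have hmm : (fun i => ∑ j, e j * m j i) = fun i => ∑ j, e' j * m j i := by
    refine h3 p G W ι T hS _ _ fun g => ?_
    obtain ⟨a, ha⟩ := h5 p G W g
    have hpow : ∀ i, cp (T i) g = cp (T i) (g ^ p ^ a) := fun i => (h4 p G (T i) g a).symm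
    simp only [hpow]
    rw [← key e, ← key e']
    exact hcp _ ha
  rw [BN_sum_regroup (fun j => f (M j)) (fun i => f (T i)) m (fun j => hm1 j f hf) e,
    BN_sum_regroup (fun j => f (M j)) (fun i => f (T i)) m (fun j => hm1 j f hf) e']
  refine Finset.sum_congr rfl fun i _ => ?_
  rw [congrFun hmm i]

end Fermat.Agent.TW56.Ind

end
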