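/-
TEAM TW56 -> S56, block [IND] (helper87): `Ind.Stmt_IND` is `Loc.Stmt_INDproj`.
-/
import Fermat.Agent.TW56.Ind.Interface
import Fermat.Agent.TW56.Loc.LecInterface

set_option autoImplicit false

namespace Fermat.Agent.TW56.Ind

theorem indproj_of_IND (h : Stmt_IND) : _root_.Fermat.Agent.TW56.Loc.Stmt_INDproj :=
  fun p _ G _ W _ _ f hadd hk X hX => h p G W f hadd hk X hX

end Fermat.Agent.TW56.Ind
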