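/-
TEAM TW56 -> S56, block [IND], C7 : **COMB** (`Stmt_comb`).
-/
import Fermat.Agent.TW56.Ind.Interface

set_option autoImplicit false

noncomputable section

namespace Fermat.Agent.TW56.Ind

open _root_.Fermat.Agent.CFT.Pos Module CategoryTheory Polynomial

section

/-- the index type `Σ j, Fin (c j)`. -/
abbrev Comb_J {m : ℕ} (c : Fin m → ℕ) : Type := Σ j : Fin m, Fin (c j)

/-- the sets `Fin j → A`. -/
abbrev Comb_B (A : Type) {m : ℕ} (c : Fin m → ℕ) (x : Comb_J c) : Type := Fin (x.1 : ℕ) → A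

/-- the permutations `permArrow σ j`. -/
def Comb_tau {A : Type} (σ : Equiv.Perm A) {m : ℕ} (c : Fin m → ℕ) (x : Comb_J c) :
    Equiv.Perm (Comb_B A c x) := permArrow σ x.1

variable {k : Type} [Field k] {V : Type} [AddCommGroup V] [Module k V] [Module.Finite k V]

lemma Comb_charpoly (h3 : Stmt_opSigma) (u : V →ₗ[k] V) {A : Type} [Finite A] (σ : Equiv.Perm A)
    {m : ℕ} (c : Fin m → ℕ) :
    (opU (Equiv.Perm.sigmaCongrRight (Comb_tau σ c)) u).charpoly
      = ∏ j : Fin m, (opU (permArrow σ j) u).charpoly ^ c j := by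
  rw [h3 k V u (Comb_J c) (Comb_B A c) (Comb_tau σ c), Fintype.prod_sigma]
  refine Finset.prod_congr rfl (fun j _ => ?_)
  have : ∀ i : Fin (c j), (opU (Comb_tau σ c ⟨j, i⟩) u).charpoly
      = (opU (permArrow σ j) u).charpoly := fun i => rfl
  simp [this]

lemma Comb_nfix (h4 : Stmt_nfix) {A : Type} [Finite A] (σ : Equiv.Perm A) {m : ℕ}
    (c : Fin m → ℕ) (n : ℕ) :
    nfix ((Equiv.Perm.sigmaCongrRight (Comb_tau σ c)) ^ n)
      = ∑ j : Fin m, c j * nfix (σ ^ n) ^ (j : ℕ) := by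
  rw [h4.1 (Comb_J c) (Comb_B A c) (Comb_tau σ c) n, Fintype.sum_sigma]
  refine Finset.sum_congr rfl (fun j _ => ?_)
  have : ∀ i : Fin (c j), nfix ((Comb_tau σ c ⟨j, i⟩) ^ n) = nfix (σ ^ n) ^ (j : ℕ) :=
    fun i => h4.2 A σ j n
  simp [this]

lemma Comb_eval (N t : ℕ) (h1 : 1 ≤ t) (h2 : t ≤ N) :
    ∑ j : Fin (N + 1), (polyP N).coeff j * (t : ℤ) ^ (j : ℕ) = 0 := by
  have hdeg : (polyP N).natDegree < N + 1 := by
    rw [polyP, natDegree_finsetProd_X_sub_C_eq_card, Nat.card_Icc]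
    omega
  have h3 : (polyP N).eval (t : ℤ) = 0 := by
    rw [polyP, eval_prod]
    apply Finset.prod_eq_zero (Finset.mem_Icc.2 ⟨h1, h2⟩)
    simp
  rw [eval_eq_sum_range' hdeg, Finset.sum_range] at h3
  exact h3

end

/-- **C7. COMB** -/
theorem stmt_comb (h1 : Stmt_permIso) (h2 : Stmt_opConj) (h3 : Stmt_opSigma) (h4 : Stmt_nfix) :
    Stmt_comb := by
  intro k _ V _ _ _ u A _ σ hfix
  set N := Nat.card A with hN
  let cP : Fin (N + 1) → ℕ := fun j => ((polyP N).coeff j).toNat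
  let cM : Fin (N + 1) → ℕ := fun j => (-(polyP N).coeff j).toNat
  show ∏ j : Fin (N + 1), (opU (permArrow σ j) u).charpoly ^ cP j
    = ∏ j : Fin (N + 1), (opU (permArrow σ j) u).charpoly ^ cM j
  rw [← Comb_charpoly h3 u σ cP, ← Comb_charpoly h3 u σ cM]
  have hn : ∀ n : ℕ, nfix ((Equiv.Perm.sigmaCongrRight (Comb_tau σ cP)) ^ n)
      = nfix ((Equiv.Perm.sigmaCongrRight (Comb_tau σ cM)) ^ n) := by
    intro n
    rw [Comb_nfix h4, Comb_nfix h4]
    set t := nfix (σ ^ n) with ht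
    have ht1 : 1 ≤ t := by
      obtain ⟨a, ha⟩ := hfix n
      have : Nonempty {b : A // (σ ^ n) b = b} := ⟨⟨a, ha⟩⟩
      exact Nat.succ_le_of_lt Nat.card_pos
    have ht2 : t ≤ N := Finite.card_subtype_le _
    have key := Comb_eval N t ht1 ht2
    have e : ∀ j : Fin (N + 1), (polyP N).coeff j = (cP j : ℤ) - (cM j : ℤ) :=
      fun j => (Int.toNat_sub_toNat_neg _).symm
    simp only [e, sub_mul, Finset.sum_sub_distrib] at key
    have key' := sub_eq_zero.1 key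
    exact_mod_cast key'
  obtain ⟨e, he⟩ := h1 _ _ _ _ hn
  exact h2 k V u _ _ _ _ e he

end Fermat.Agent.TW56.Ind

end
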