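/-
TEAM TW56 -> S56, block [IND], task IND-C5 (helper83): the characteristic polynomial of `g` on the
iterates `T^j X`.
-/
import Fermat.Agent.TW56.Ind.Interface

set_option autoImplicit false

noncomputable section

namespace Fermat.Agent.TW56.Ind

open _root_.Fermat.Agent.CFT.Pos Module CategoryTheory Polynomial

/-- `(A → Y) ≃ ((Fin (j+1) → A) → V)` from `Y ≃ ((Fin j → A) → V)`. -/
def CpIt_step {k : Type} [Field k] {A Y V : Type} [AddCommGroup Y] [Module k Y] [AddCommGroup V]
    [Module k V] {j : ℕ} (e : Y ≃ₗ[k] ((Fin j → A) → V)) :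
    (A → Y) ≃ₗ[k] ((Fin (j + 1) → A) → V) where
  toFun F c := e (F (c 0)) (Fin.tail c)
  invFun H a := e.symm (fun c => H (Fin.cons a c))
  map_add' F F' := funext fun c => by simp
  map_smul' a F := funext fun c => by simp
  left_inv F := funext fun a => by simp
  right_inv H := funext fun c => by simp

lemma CpIt_step_apply {k : Type} [Field k] {A Y V : Type} [AddCommGroup Y] [Module k Y]
    [AddCommGroup V] [Module k V] {j : ℕ} (e : Y ≃ₗ[k] ((Fin j → A) → V)) (F : A → Y)
    (c : Fin (j + 1) → A) : CpIt_step e F c = e (F (c 0)) (Fin.tail c) := rfl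

/-- `g` on `T^j X` is conjugate to `opU` of the permutation of `Fin j → A`. -/
theorem CpIt_conj {k : Type} [Field k] {G : Type} [Group G] (A : Type) [MulAction G A]
    (X : Rep.{0} k G) (j : ℕ) :
    ∃ e : (itT A X j) ≃ₗ[k] ((Fin j → A) → X), ∀ (g : G) (x : itT A X j),
      e ((itT A X j).ρ g x)
        = opU (permArrow (MulAction.toPerm g : Equiv.Perm A) j) (X.ρ g) (e x) := by
  induction j with
  | zero =>
    refine ⟨(LinearEquiv.funUnique (Fin 0 → A) k X).symm, fun g x => ?_⟩
    funext b
    rfl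
  | succ j ih =>
    obtain ⟨e, he⟩ := ih
    refine ⟨CpIt_step e, fun g F => ?_⟩
    funext c
    show e ((itT A X j).ρ g (F (g⁻¹ • c 0))) (Fin.tail c) = _
    rw [he]
    rfl

/-- C5, without hypotheses. -/
theorem CpIt_main : Stmt_cpIt := by
  intro k _ G _ A _ _ X _ g j
  obtain ⟨e, he⟩ := CpIt_conj A X j
  have hfin : Module.Finite k (itT A X j) := Module.Finite.equiv e.symm
  rw [cp_eq, ← LinearEquiv.charpoly_conj e]
  congr 1
  apply LinearMap.ext
  intro y
  rw [LinearEquiv.conj_apply_apply, he, LinearEquiv.apply_symm_apply]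

/-- C5. the characteristic polynomial of `g` on `T^j X`. -/
theorem stmt_cpIt (_h1 : Stmt_opConj) (_h2 : Stmt_opProd) : Stmt_cpIt := CpIt_main

end Fermat.Agent.TW56.Ind

end
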