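/-
TEAM TW56 -> S56, block [IND], task IND-A4 (helper72): `Stmt_cpPow`, `Stmt_preg`.
-/
import Fermat.Agent.TW56.Ind.Interface

set_option autoImplicit false

noncomputable section

namespace Fermat.Agent.TW56.Ind

open _root_.Fermat.Agent.CFT.Pos Module CategoryTheory Polynomial

lemma CpPow_charpoly_pow (p : ℕ) [Fact p.Prime] {V : Type} [AddCommGroup V] [Module (ZMod p) V]
    [Module.Finite (ZMod p) V] (f : V →ₗ[ZMod p] V) : (f ^ p).charpoly = f.charpoly := by
  have b := Module.finBasis (ZMod p) V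
  rw [← LinearMap.charpoly_toMatrix (f ^ p) b, ← LinearMap.charpoly_toMatrix f b,
    ← LinearMap.toMatrix_pow, ZMod.charpoly_pow_card]

lemma CpPow_charpoly_pow_pow (p : ℕ) [Fact p.Prime] {V : Type} [AddCommGroup V]
    [Module (ZMod p) V] [Module.Finite (ZMod p) V] (f : V →ₗ[ZMod p] V) (a : ℕ) :
    (f ^ p ^ a).charpoly = f.charpoly := by
  induction a with
  | zero => rw [pow_zero, pow_one]
  | succ a ih => rw [pow_succ, pow_mul, CpPow_charpoly_pow, ih]

theorem stmt_cpPow : Stmt_cpPow := by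
  intro p _ G _ X g a
  by_cases h : Module.Finite (ZMod p) X
  · rw [cp_eq, cp_eq, map_pow]
    exact CpPow_charpoly_pow_pow p (X.ρ g) a
  · rw [cp, cp, dif_neg h, dif_neg h]

theorem stmt_preg : Stmt_preg := by
  intro p _ G _ W _ _ g
  have hp : p.Prime := Fact.out
  have hn : Nat.card (G ⧸ W) ≠ 0 := Nat.card_pos.ne'
  obtain ⟨a, m, hm, hnm⟩ := Nat.exists_eq_pow_mul_and_not_dvd hn p hp.ne_one
  refine ⟨a, fun hdvd => hm (hdvd.trans ?_)⟩
  apply orderOf_dvd_of_pow_eq_one
  rw [QuotientGroup.mk_pow, ← pow_mul, ← hnm]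
  exact pow_card_eq_one'

end Fermat.Agent.TW56.Ind

end
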