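/-
TEAM TW56 -> S56, block [IND], package IND-A3 : the characteristic polynomial is multiplicative in
short exact sequences (`Stmt_cpSES`).
-/
import Fermat.Agent.TW56.Ind.Interface

set_option autoImplicit false

noncomputable section

namespace Fermat.Agent.TW56.Ind

open _root_.Fermat.Agent.CFT.Pos Module CategoryTheory Polynomial

/-- linear algebra form. -/
theorem CpSES_lin {k : Type} [Field k] {V₁ V₂ V₃ : Type} [AddCommGroup V₁] [Module k V₁]
    [AddCommGroup V₂] [Module k V₂] [AddCommGroup V₃] [Module k V₃]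
    [Module.Finite k V₁] [Module.Finite k V₂] [Module.Finite k V₃]
    (i : V₁ →ₗ[k] V₂) (q : V₂ →ₗ[k] V₃) (hi : Function.Injective i) (hq : Function.Surjective q)
    (hex : ∀ x : V₂, q x = 0 ↔ ∃ a : V₁, i a = x)
    (f₁ : V₁ →ₗ[k] V₁) (f₂ : V₂ →ₗ[k] V₂) (f₃ : V₃ →ₗ[k] V₃)
    (h₁ : ∀ a, f₂ (i a) = i (f₁ a)) (h₃ : ∀ x, q (f₂ x) = f₃ (q x)) :
    f₂.charpoly = f₁.charpoly * f₃.charpoly := by
  classical
  obtain ⟨s, hs⟩ := q.exists_rightInverse_of_surjective (LinearMap.range_eq_top.2 hq)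
  have hs' : ∀ c, q (s c) = c := fun c => by
    have := LinearMap.congr_fun hs c
    simpa using this
  have hqi : ∀ a, q (i a) = 0 := fun a => (hex _).2 ⟨a, rfl⟩
  -- the isomorphism `V₁ × V₃ ≃ V₂`
  let E : (V₁ × V₃) →ₗ[k] V₂ := i.coprod s
  have hE : ∀ a c, E (a, c) = i a + s c := fun a c => by simp [E]
  have hEbij : Function.Bijective E := by
    constructor
    · rw [← LinearMap.ker_eq_bot, LinearMap.ker_eq_bot']
      rintro ⟨a, c⟩ h
      rw [hE] at h
      have hc : c = 0 := by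
        have := congrArg q h
        simpa [hqi, hs'] using this
      subst hc
      have ha : i a = 0 := by simpa using h
      have : a = 0 := hi (by simpa using ha)
      simp [this]
    · intro x
      obtain ⟨a, ha⟩ := (hex (x - s (q x))).1 (by simp [hs'])
      exact ⟨(a, q x), by rw [hE, ha]; abel⟩
  let e : (V₁ × V₃) ≃ₗ[k] V₂ := LinearEquiv.ofBijective E hEbij
  have he : ∀ a c, e (a, c) = i a + s c := hE
  have hsnd : ∀ v, (e.symm v).2 = q v := by
    intro v
    obtain ⟨⟨a, c⟩, rfl⟩ := e.surjective v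
    rw [e.symm_apply_apply, he]
    simp [hqi, hs']
  let b₁ := Module.finBasis k V₁
  let b₃ := Module.finBasis k V₃
  let b₂ := (b₁.prod b₃).map e
  have hM : LinearMap.toMatrix b₂ b₂ f₂ =
      Matrix.fromBlocks (LinearMap.toMatrix b₁ b₁ f₁) (LinearMap.toMatrix b₂ b₂ f₂).toBlocks₁₂ 0
        (LinearMap.toMatrix b₃ b₃ f₃) := by
    conv_lhs => rw [← Matrix.fromBlocks_toBlocks (LinearMap.toMatrix b₂ b₂ f₂)]
    have hinl : ∀ j, f₂ (b₂ (Sum.inl j)) = e (f₁ (b₁ j), 0) := by
      intro j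
      have : b₂ (Sum.inl j) = i (b₁ j) := by
        simp [b₂, he]
      rw [this, h₁, he]; simp
    congr 1
    · ext a b
      simp only [Matrix.toBlocks₁₁, Matrix.of_apply, LinearMap.toMatrix_apply, hinl]
      simp [b₂]
    · ext a b
      simp only [Matrix.toBlocks₂₁, Matrix.of_apply, LinearMap.toMatrix_apply, hinl]
      simp [b₂]
    · ext a b
      simp only [Matrix.toBlocks₂₂, Matrix.of_apply, LinearMap.toMatrix_apply]
      have : b₂ (Sum.inr b) = s (b₃ b) := by
        simp [b₂, he]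
      rw [this]
      simp only [b₂, Basis.map_repr, LinearEquiv.trans_apply, Basis.prod_repr_inr, hsnd, h₃, hs']
  rw [← LinearMap.charpoly_toMatrix f₂ b₂, hM, Matrix.charpoly_fromBlocks_zero₂₁,
    LinearMap.charpoly_toMatrix, LinearMap.charpoly_toMatrix]

theorem stmt_cpSES : Stmt_cpSES := by
  intro k _ G _ X₁ X₂ X₃ i q h1 h2 h3 hses g
  rw [cp_eq, cp_eq, cp_eq]
  refine CpSES_lin (i.hom : X₁ →ₗ[k] X₂) (q.hom : X₂ →ₗ[k] X₃) hses.inj hses.surj hses.exact
    (X₁.ρ g) (X₂.ρ g) (X₃.ρ g) ?_ ?_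
  · intro a
    exact (Rep.hom_comm_apply i g a).symm
  · intro x
    exact (Rep.hom_comm_apply q g x)

end Fermat.Agent.TW56.Ind

end
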