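/-
TEAM TW56 -> S56, block [IND], package P3 (helper87): `Ind` of a cyclic `H`-module is a retract of
`perm W`.
-/
import Fermat.Agent.TW56.Ind.Interface

set_option autoImplicit false
set_option linter.unusedSectionVars false

noncomputable section

namespace Fermat.Agent.TW56.Ind

open _root_.Fermat.Agent.CFT.Pos Module CategoryTheory Polynomial

section

variable {k : Type} [Field k] {G : Type} [Group G] (W : Subgroup G) [W.Normal]
  (H : Subgroup G) (Y : Rep.{0} k G) (hY : TrivOn W Y)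

/-- the action of `G ⧸ W`. -/
def CycRetract_rb : (G ⧸ W) →* (Y →ₗ[k] Y) :=
  QuotientGroup.lift W Y.ρ (fun w hw => LinearMap.ext (hY w hw))

lemma CycRetract_rb_mk (g : G) : CycRetract_rb W Y hY (g : G ⧸ W) = Y.ρ g := rfl

/-- the image of `H` in `G ⧸ W`. -/
abbrev CycRetract_Hb : Subgroup (G ⧸ W) := H.map (QuotientGroup.mk' W)

lemma CycRetract_smul (g : G) (c : G ⧸ W) : g • c = (g : G ⧸ W) * c := by
  induction c using QuotientGroup.induction_on
  rfl

variable [W.FiniteIndex]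

instance CycRetract_fin : Fintype (CycRetract_Hb W H) :=
  have : Finite (G ⧸ W) := Subgroup.finite_quotient_of_finiteIndex
  Fintype.ofFinite _

/-- `R φ γ = ∑_h φ (γ h) ρ(γ h) b`. -/
def CycRetract_R (b : Y) (φ : G ⧸ W → k) (γ : G ⧸ W) : Y :=
  ∑ h : CycRetract_Hb W H, φ (γ * h) • CycRetract_rb W Y hY (γ * h) b

lemma CycRetract_R_mul (b : Y) (φ : G ⧸ W → k) (γ : G ⧸ W) (h₀ : CycRetract_Hb W H) :
    CycRetract_R W H Y hY b φ (γ * h₀) = CycRetract_R W H Y hY b φ γ := by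
  unfold CycRetract_R
  refine Fintype.sum_equiv (Equiv.mulLeft h₀) _ _ fun h => ?_
  simp [mul_assoc]

lemma CycRetract_rb_R (b : Y) (φ : G ⧸ W → k) (γ δ : G ⧸ W) :
    CycRetract_rb W Y hY δ (CycRetract_R W H Y hY b φ γ)
      = CycRetract_R W H Y hY b (fun c => φ (δ⁻¹ * c)) (δ * γ) := by
  unfold CycRetract_R
  rw [map_sum]
  refine Finset.sum_congr rfl fun h _ => ?_
  rw [map_smul, ← Module.End.mul_apply, ← map_mul]
  simp [mul_assoc]


/-- the cyclic `H`-module generated by `b`. -/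
abbrev CycRetract_B (b : Y) : Submodule k Y := Submodule.span k {y | ∃ h ∈ H, Y.ρ h b = y}

lemma CycRetract_rb_mem (b : Y) (h : CycRetract_Hb W H) :
    CycRetract_rb W Y hY h b ∈ CycRetract_B H Y b := by
  obtain ⟨h', hh', he⟩ := h.2
  rw [← he]
  exact Submodule.subset_span ⟨h', hh', rfl⟩

lemma CycRetract_B_stable (b : Y) (h : CycRetract_Hb W H) (y : Y) (hy : y ∈ CycRetract_B H Y b) :
    CycRetract_rb W Y hY h y ∈ CycRetract_B H Y b := by
  obtain ⟨h', hh', he⟩ := h.2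
  rw [← he]
  induction hy using Submodule.span_induction with
  | mem x hx =>
    obtain ⟨h₁, hh₁, rfl⟩ := hx
    refine Submodule.subset_span ⟨h' * h₁, H.mul_mem hh' hh₁, ?_⟩
    rw [map_mul]
    rfl
  | zero => rw [map_zero]; exact Submodule.zero_mem _
  | add x y _ _ hx hy => rw [map_add]; exact Submodule.add_mem _ hx hy
  | smul a x _ hx => rw [map_smul]; exact Submodule.smul_mem _ a hx

/-- the function `r φ`. -/
def CycRetract_rFun (b : Y) (φ : G ⧸ W → k) (d : G ⧸ H) : Y :=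
  CycRetract_R W H Y hY b φ ((d.out : G) : G ⧸ W)

lemma CycRetract_rFun_mk (b : Y) (φ : G ⧸ W → k) (g : G) :
    CycRetract_rFun W H Y hY b φ (g : G ⧸ H) = CycRetract_R W H Y hY b φ (g : G ⧸ W) := by
  obtain ⟨h, hh⟩ := QuotientGroup.mk_out_eq_mul H g
  unfold CycRetract_rFun
  rw [hh]
  exact CycRetract_R_mul W H Y hY b φ (g : G ⧸ W) ⟨((h : G) : G ⧸ W), (h : G), h.2, rfl⟩

/-- `r` as a linear map to functions. -/
def CycRetract_rLin (b : Y) : (G ⧸ W → k) →ₗ[k] (G ⧸ H → Y) where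
  toFun φ := CycRetract_rFun W H Y hY b φ
  map_add' φ φ' := funext fun d => by
    simp [CycRetract_rFun, CycRetract_R, add_smul, Finset.sum_add_distrib]
  map_smul' a φ := funext fun d => by
    simp [CycRetract_rFun, CycRetract_R, mul_smul, Finset.smul_sum]

lemma CycRetract_rLin_mem (b : Y) (φ : G ⧸ W → k) :
    CycRetract_rLin W H Y hY b φ ∈ twSub H Y (CycRetract_B H Y b) := by
  intro g
  change Y.ρ g⁻¹ (CycRetract_rFun W H Y hY b φ (g : G ⧸ H)) ∈ _
  rw [CycRetract_rFun_mk, ← CycRetract_rb_mk W Y hY, CycRetract_rb_R]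
  unfold CycRetract_R
  refine Submodule.sum_mem _ fun h _ => Submodule.smul_mem _ _ ?_
  have : ((g⁻¹ : G) : G ⧸ W) * (g : G ⧸ W) * (h : G ⧸ W) = h := by
    rw [← QuotientGroup.mk_mul]
    simp
  rw [this]
  exact CycRetract_rb_mem W H Y hY b h

/-- the morphism `r`. -/
def CycRetract_r (b : Y) : (perm W : Rep.{0} k G) ⟶ twB H Y (CycRetract_B H Y b) :=
  Rep.ofHom ⟨LinearMap.codRestrict _ (CycRetract_rLin W H Y hY b) (CycRetract_rLin_mem W H Y hY b),
    fun g => LinearMap.ext fun φ => Subtype.ext <| funext fun d => by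
      induction d using QuotientGroup.induction_on with
      | H x =>
        change CycRetract_rFun W H Y hY b ((perm W : Rep.{0} k G).ρ g φ) (x : G ⧸ H)
          = Y.ρ g (CycRetract_rFun W H Y hY b φ (g⁻¹ • (x : G ⧸ H)))
        have h1 : g⁻¹ • (x : G ⧸ H) = ((g⁻¹ * x : G) : G ⧸ H) := rfl
        rw [h1, CycRetract_rFun_mk, CycRetract_rFun_mk, ← CycRetract_rb_mk W Y hY, CycRetract_rb_R]
        have h2 : (g : G ⧸ W) * ((g⁻¹ * x : G) : G ⧸ W) = (x : G ⧸ W) := by
          rw [← QuotientGroup.mk_mul]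
          simp
        rw [h2]
        congr 1⟩


variable (hWH : W ≤ H)

/-- `i_λ` as a linear map. -/
def CycRetract_iLin (lam : Y →ₗ[k] k) : (G ⧸ H → Y) →ₗ[k] (G ⧸ W → k) where
  toFun F γ := lam (CycRetract_rb W Y hY γ⁻¹ (F (Subgroup.quotientMapOfLE hWH γ)))
  map_add' F F' := funext fun γ => by simp
  map_smul' a F := funext fun γ => by simp

lemma CycRetract_iLin_mk (lam : Y →ₗ[k] k) (F : G ⧸ H → Y) (x : G) :
    CycRetract_iLin W H Y hY hWH lam F (x : G ⧸ W) = lam (Y.ρ x⁻¹ (F (x : G ⧸ H))) := rfl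

/-- the morphism `i_λ`. -/
def CycRetract_i (lam : Y →ₗ[k] k) (B : Submodule k Y) : twB H Y B ⟶ (perm W : Rep.{0} k G) :=
  Rep.ofHom ⟨CycRetract_iLin W H Y hY hWH lam ∘ₗ (twSub H Y B).subtype,
    fun g => LinearMap.ext fun F => funext fun γ => by
      induction γ using QuotientGroup.induction_on with
      | H x =>
        change CycRetract_iLin W H Y hY hWH lam ((tw H Y).ρ g F.1) (x : G ⧸ W)
          = CycRetract_iLin W H Y hY hWH lam F.1 ((g⁻¹ * x : G) : G ⧸ W)
        rw [CycRetract_iLin_mk, CycRetract_iLin_mk, tw_ρ_apply, ← Module.End.mul_apply, ← map_mul]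
        have h1 : g⁻¹ • (x : G ⧸ H) = ((g⁻¹ * x : G) : G ⧸ H) := rfl
        rw [h1]
        congr 3
        group⟩

/-- `Θ y = ∑_h λ (ρ(h)⁻¹ y) ρ(h) b`. -/
def CycRetract_Th (b : Y) (lam : Y →ₗ[k] k) (y : Y) : Y :=
  ∑ h : CycRetract_Hb W H, lam (CycRetract_rb W Y hY (h : G ⧸ W)⁻¹ y) • CycRetract_rb W Y hY h b

lemma CycRetract_r_i (b : Y) (lam : Y →ₗ[k] k) (F : G ⧸ H → Y) (g : G) :
    CycRetract_rFun W H Y hY b (CycRetract_iLin W H Y hY hWH lam F) (g : G ⧸ H)
      = Y.ρ g (CycRetract_Th W H Y hY b lam (Y.ρ g⁻¹ (F (g : G ⧸ H)))) := by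
  rw [CycRetract_rFun_mk]
  unfold CycRetract_R CycRetract_Th
  rw [map_sum]
  refine Finset.sum_congr rfl fun h => ?_
  intro _
  obtain ⟨h', hh', he⟩ := h.2
  rw [← he]
  change CycRetract_iLin W H Y hY hWH lam F ((g * h' : G) : G ⧸ W) • Y.ρ (g * h') b
    = Y.ρ g (lam (Y.ρ h'⁻¹ (Y.ρ g⁻¹ (F (g : G ⧸ H)))) • Y.ρ h' b)
  rw [CycRetract_iLin_mk, map_smul, map_mul, Module.End.mul_apply, mul_inv_rev, map_mul,
    Module.End.mul_apply]
  have h2 : ((g * h' : G) : G ⧸ H) = (g : G ⧸ H) := by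
    rw [QuotientGroup.eq]
    simpa using H.inv_mem hh'
  rw [h2]


/-- `Φ φ = ∑_h φ h ρ(h) b`. -/
def CycRetract_Phi (b : Y) : (CycRetract_Hb W H → k) →ₗ[k] Y :=
  ∑ h : CycRetract_Hb W H, (LinearMap.proj h).smulRight (CycRetract_rb W Y hY h b)

lemma CycRetract_Phi_apply (b : Y) (φ : CycRetract_Hb W H → k) :
    CycRetract_Phi W H Y hY b φ = ∑ h : CycRetract_Hb W H, φ h • CycRetract_rb W Y hY h b := by
  simp [CycRetract_Phi, LinearMap.sum_apply]

lemma CycRetract_B_le (b : Y) : CycRetract_B H Y b ≤ LinearMap.range (CycRetract_Phi W H Y hY b) := by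
  classical
  refine Submodule.span_le.2 ?_
  rintro y ⟨h', hh', rfl⟩
  refine ⟨Pi.single ⟨((h' : G) : G ⧸ W), h', hh', rfl⟩ 1, ?_⟩
  rw [CycRetract_Phi_apply, Finset.sum_eq_single ⟨((h' : G) : G ⧸ W), h', hh', rfl⟩]
  · simp [CycRetract_rb_mk]
  · intro h _ hne
    simp [Pi.single_eq_of_ne hne]
  · intro h
    exact absurd (Finset.mem_univ _) h

lemma CycRetract_exists_s (b : Y) : ∃ s : Y →ₗ[k] (CycRetract_Hb W H → k),
    ∀ y ∈ CycRetract_B H Y b, CycRetract_Phi W H Y hY b (s y) = y := by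
  obtain ⟨g, hg⟩ := (CycRetract_Phi W H Y hY b).rangeRestrict.exists_rightInverse_of_surjective
    (LinearMap.range_rangeRestrict _)
  obtain ⟨s, hs⟩ := LinearMap.exists_extend g
  refine ⟨s, fun y hy => ?_⟩
  have hy' := CycRetract_B_le W H Y hY b hy
  have h1 : s y = g ⟨y, hy'⟩ := LinearMap.congr_fun hs ⟨y, hy'⟩
  have h2 := LinearMap.congr_fun hg ⟨y, hy'⟩
  rw [h1]
  exact congrArg Subtype.val h2

/-- the averaged linear form. -/
def CycRetract_lam (s : Y →ₗ[k] (CycRetract_Hb W H → k)) : Y →ₗ[k] k :=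
  ((Nat.card (CycRetract_Hb W H) : k)⁻¹) •
    ∑ t : CycRetract_Hb W H, LinearMap.proj t ∘ₗ s ∘ₗ CycRetract_rb W Y hY t

lemma CycRetract_lam_apply (s : Y →ₗ[k] (CycRetract_Hb W H → k)) (y : Y) :
    CycRetract_lam W H Y hY s y = ((Nat.card (CycRetract_Hb W H) : k)⁻¹) *
      ∑ t : CycRetract_Hb W H, s (CycRetract_rb W Y hY t y) t := by
  simp [CycRetract_lam, LinearMap.sum_apply]

lemma CycRetract_inner (b : Y) (s : Y →ₗ[k] (CycRetract_Hb W H → k))
    (hs : ∀ y ∈ CycRetract_B H Y b, CycRetract_Phi W H Y hY b (s y) = y)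
    (u : CycRetract_Hb W H) (y : Y) (hy : y ∈ CycRetract_B H Y b) :
    ∑ h : CycRetract_Hb W H, s (CycRetract_rb W Y hY u y) (u * h) • CycRetract_rb W Y hY h b = y := by
  have h1 : CycRetract_rb W Y hY u
      (∑ h : CycRetract_Hb W H, s (CycRetract_rb W Y hY u y) (u * h) • CycRetract_rb W Y hY h b)
      = CycRetract_rb W Y hY u y := by
    rw [map_sum]
    have h2 := hs _ (CycRetract_B_stable W H Y hY b u y hy)
    rw [CycRetract_Phi_apply] at h2
    rw [← h2]
    refine Fintype.sum_equiv (Equiv.mulLeft u) _ _ fun h => ?_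
    rw [h2, map_smul, ← Module.End.mul_apply, ← map_mul]
    rfl
  have h3 := congrArg (CycRetract_rb W Y hY (u : G ⧸ W)⁻¹) h1
  rw [← Module.End.mul_apply, ← Module.End.mul_apply, ← map_mul, inv_mul_cancel, map_one] at h3
  exact h3

lemma CycRetract_Th_eq (b : Y) (s : Y →ₗ[k] (CycRetract_Hb W H → k))
    (hs : ∀ y ∈ CycRetract_B H Y b, CycRetract_Phi W H Y hY b (s y) = y)
    (hm : (Nat.card (CycRetract_Hb W H) : k) ≠ 0) (y : Y) (hy : y ∈ CycRetract_B H Y b) :
    CycRetract_Th W H Y hY b (CycRetract_lam W H Y hY s) y = y := by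
  unfold CycRetract_Th
  have h1 : ∀ h : CycRetract_Hb W H,
      CycRetract_lam W H Y hY s (CycRetract_rb W Y hY (h : G ⧸ W)⁻¹ y) • CycRetract_rb W Y hY h b
      = ((Nat.card (CycRetract_Hb W H) : k)⁻¹) • ∑ u : CycRetract_Hb W H,
          s (CycRetract_rb W Y hY u y) (u * h) • CycRetract_rb W Y hY h b := by
    intro h
    rw [CycRetract_lam_apply, mul_smul, Finset.sum_smul]
    congr 1
    refine (Fintype.sum_equiv (Equiv.mulRight h) _ _ fun u => ?_).symm
    rw [← Module.End.mul_apply, ← map_mul]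
    simp
  rw [Finset.sum_congr rfl fun h _ => h1 h, ← Finset.smul_sum, Finset.sum_comm,
    Finset.sum_congr rfl fun u _ => CycRetract_inner W H Y hY b s hs u y hy, Finset.sum_const,
    Finset.card_univ, ← Nat.card_eq_fintype_card, ← Nat.cast_smul_eq_nsmul k, smul_smul,
    inv_mul_cancel₀ hm, one_smul]


include hWH in
lemma CycRetract_card : Nat.card (CycRetract_Hb W H) = W.relIndex H := by
  have h1 := Subgroup.card_mul_index (CycRetract_Hb W H)
  have h2 : (CycRetract_Hb W H).index = H.index := by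
    rw [Subgroup.index_map, QuotientGroup.ker_mk', sup_eq_left.2 hWH,
      MonoidHom.range_eq_top.2 (QuotientGroup.mk'_surjective W), Subgroup.index_top, mul_one]
  have h3 := Subgroup.relIndex_mul_index hWH
  have h4 : Nat.card (G ⧸ W) = W.index := rfl
  have h5 : H.index ≠ 0 := (Subgroup.finiteIndex_of_le hWH).index_ne_zero
  rw [h2, h4, ← h3] at h1
  exact Nat.eq_of_mul_eq_mul_right (Nat.pos_of_ne_zero h5) h1

end

/-- P3. -/
theorem stmt_cycRetract : Stmt_cycRetract := by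
  intro p _ G _ W _ _ H hWH hp Y hY b
  obtain ⟨s, hs⟩ := CycRetract_exists_s W H Y hY b
  have hm : (Nat.card (CycRetract_Hb W H) : ZMod p) ≠ 0 := by
    rw [CycRetract_card W H hWH, Ne, ZMod.natCast_eq_zero_iff]
    exact hp
  refine ⟨CycRetract_i W H Y hY hWH (CycRetract_lam W H Y hY s) _, CycRetract_r W H Y hY b,
    fun F => Subtype.ext <| funext fun d => ?_⟩
  induction d using QuotientGroup.induction_on with
  | H g =>
    change CycRetract_rFun W H Y hY b
      (CycRetract_iLin W H Y hY hWH (CycRetract_lam W H Y hY s) F.1) (g : G ⧸ H) = F.1 (g : G ⧸ H)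
    rw [CycRetract_r_i, CycRetract_Th_eq W H Y hY b s hs hm _ (F.2 g), ← Module.End.mul_apply,
      ← map_mul, mul_inv_cancel, map_one, Module.End.one_apply]

end Fermat.Agent.TW56.Ind

end

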