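/-
TEAM TW56 -> S56, block [IND].  IND-B4 : density for a finite family of non isomorphic simple modules.
-/
import Fermat.Agent.TW56.Ind.Interface

set_option autoImplicit false

noncomputable section

namespace Fermat.Agent.TW56.Ind

open _root_.Fermat.Agent.CFT.Pos Module CategoryTheory Polynomial

/-- abstract density for a finite family of simple modules without non zero morphisms between
different members. -/
theorem Dens_abs (R : Type) [Ring R] (ι : Type) [Fintype ι] [DecidableEq ι] (M : ι → Type)
    [∀ j, AddCommGroup (M j)] [∀ j, Module R (M j)] [∀ j, IsSimpleModule R (M j)]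
    (hnon : ∀ i j, i ≠ j → ∀ f : M i →ₗ[R] M j, f = 0)
    (i : ι) (φ : M i →+ M i) (hφ : ∀ (d : M i →ₗ[R] M i) (x : M i), φ (d x) = d (φ x))
    (s : ∀ j, Finset (M j)) :
    ∃ r : R, (∀ m ∈ s i, r • m = φ m) ∧ ∀ j, j ≠ i → ∀ m ∈ s j, r • m = 0 := by
  classical
  -- components of an endomorphism
  have hdiag : ∀ (e : Module.End R (Π j, M j)) (l j : ι) (x : M l), l ≠ j →
      e (Pi.single l x) j = 0 := by
    intro e l j x hlj
    have := hnon l j hlj ((LinearMap.proj j) ∘ₗ e ∘ₗ (LinearMap.single R M l))
    exact congrArg (fun f => f x) this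
  have hcomp : ∀ (e : Module.End R (Π j, M j)) (x : Π j, M j) (j : ι),
      e x j = e (Pi.single j (x j)) j := by
    intro e x j
    conv_lhs => rw [← Finset.univ_sum_single x]
    rw [map_sum, Finset.sum_apply, Finset.sum_eq_single j]
    · intro l _ hl
      exact hdiag e l j _ hl
    · intro h; exact absurd (Finset.mem_univ j) h
  let f : Module.End (Module.End R (Π j, M j)) (Π j, M j) :=
    { toFun := fun x => Pi.single i (φ (x i))
      map_add' := fun x y => by
        simp only [Pi.add_apply, map_add, Pi.single_add]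
      map_smul' := fun e x => by
        simp only [RingHom.id_apply, Module.End.smul_def]
        funext j
        by_cases hj : j = i
        · subst hj
          rw [Pi.single_eq_same, hcomp e x j]
          have := hφ ((LinearMap.proj j) ∘ₗ e ∘ₗ (LinearMap.single R M j)) (x j)
          exact this
        · rw [Pi.single_eq_of_ne hj]
          exact (hdiag e i j _ (Ne.symm hj)).symm }
  obtain ⟨r, hr⟩ := jacobson_density f
    (Finset.univ.biUnion fun j => (s j).image (Pi.single j))
  refine ⟨r, ?_, ?_⟩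
  · intro m hm
    have := hr (Pi.single i m) (Finset.mem_biUnion.2 ⟨i, Finset.mem_univ _,
      Finset.mem_image_of_mem _ hm⟩)
    have h2 := congrFun this i
    simp only [Pi.smul_apply, Pi.single_eq_same] at h2
    rw [← h2]
    show Pi.single i (φ ((Pi.single i m : Π j, M j) i)) i = φ m
    rw [Pi.single_eq_same, Pi.single_eq_same]
  · intro j hj m hm
    have := hr (Pi.single j m) (Finset.mem_biUnion.2 ⟨j, Finset.mem_univ _,
      Finset.mem_image_of_mem _ hm⟩)
    have h2 := congrFun this j
    simp only [Pi.smul_apply, Pi.single_eq_same] at h2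
    rw [← h2]
    show Pi.single i (φ ((Pi.single j m : Π j, M j) i)) j = (0 : M j)
    rw [Pi.single_eq_of_ne hj]

section Inst

variable {k : Type} [Field k] {G : Type} [Group G]

open scoped MonoidAlgebra

/-- an `R`-linear map between the `asModule`s, as a `k`-linear map. -/
def Dens_toLin (X Y : Rep.{0} k G) (f : X.ρ.asModule →ₗ[k[G]] Y.ρ.asModule) : X →ₗ[k] Y :=
  Y.ρ.asModuleEquiv.toLinearMap ∘ₗ (f.restrictScalars k) ∘ₗ X.ρ.asModuleEquiv.symm.toLinearMap

lemma Dens_toLin_apply (X Y : Rep.{0} k G) (f : X.ρ.asModule →ₗ[k[G]] Y.ρ.asModule) (x : X) :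
    Dens_toLin X Y f x = Y.ρ.asModuleEquiv (f (X.ρ.asModuleEquiv.symm x)) := rfl

lemma Dens_toLin_comm (X Y : Rep.{0} k G) (f : X.ρ.asModule →ₗ[k[G]] Y.ρ.asModule) (g : G) :
    Dens_toLin X Y f ∘ₗ X.ρ g = Y.ρ g ∘ₗ Dens_toLin X Y f := by
  ext x
  simp only [LinearMap.comp_apply, Dens_toLin_apply]
  rw [Representation.asModuleEquiv_symm_map_rho, map_smul, Representation.asModuleEquiv_map_smul,
    Representation.asAlgebraHom_of]

lemma Dens_simple (X : Rep.{0} k G) (h : IsSimp X) : IsSimpleModule k[G] X.ρ.asModule := by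
  rw [← Representation.irreducible_iff_isSimpleModule_asModule]
  obtain ⟨hn, hs⟩ := h
  refine { exists_pair_ne := ?_, eq_bot_or_eq_top := ?_ }
  · refine ⟨⊥, ⊤, fun h => ?_⟩
    have h2 : (⊥ : Submodule k X) = ⊤ := congrArg Subrepresentation.toSubmodule h
    exact bot_ne_top h2
  · intro σ
    rcases hs σ.toSubmodule (fun g x hx => σ.apply_mem_toSubmodule g hx) with h | h
    · left; exact Subrepresentation.toSubmodule_injective h
    · right; exact Subrepresentation.toSubmodule_injective h

lemma Dens_sum_eq (X : Rep.{0} k G) (r : k[G]) :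
    (r.coeff.sum fun g c => c • X.ρ g) = X.ρ.asAlgebraHom r := by
  rw [Representation.asAlgebraHom_def, MonoidAlgebra.lift_apply]

theorem stmt_dens : Stmt_dens := by
  classical
  intro k _ G _ W ι _ T hT i φ hφ
  have : ∀ j, IsSimpleModule k[G] (T j).ρ.asModule := fun j => Dens_simple _ (hT.simp j)
  have hfin : ∀ j, ∃ s : Finset (T j), Submodule.span k (s : Set (T j)) = ⊤ :=
    fun j => (hT.good j).1.fg_top
  choose s hs using hfin
  have hnon : ∀ i j, i ≠ j → ∀ f : (T i).ρ.asModule →ₗ[k[G]] (T j).ρ.asModule, f = 0 := by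
    intro i j hij f
    rcases LinearMap.bijective_or_eq_zero f with hb | h0
    · exfalso
      apply hij
      exact hT.noniso i j (Rep.ofHom ⟨Dens_toLin _ _ f, Dens_toLin_comm _ _ f⟩) hb
    · exact h0
  obtain ⟨r, hr1, hr2⟩ := Dens_abs k[G] ι (fun j => (T j).ρ.asModule) hnon i
    (φ.toAddMonoidHom) (fun d x => by
      have := hφ (Dens_toLin _ _ d) (Dens_toLin_comm _ _ d)
      exact congrArg (fun f => f x) this) s
  refine ⟨r.coeff, ?_, ?_⟩
  · rw [Dens_sum_eq]
    apply LinearMap.ext_on (hs i)
    intro m hm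
    exact hr1 m hm
  · intro j hj
    rw [Dens_sum_eq]
    apply LinearMap.ext_on (hs j)
    intro m hm
    exact hr2 j hj m hm

end Inst

end Fermat.Agent.TW56.Ind

end
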