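/-
TEAM TW56 -> S56, block [IND] (architect helper87).  B1: a complete finite family of simple
`𝔽_p[G/W]`-modules.
-/
import Fermat.Agent.TW56.Ind.Interface

set_option autoImplicit false
set_option linter.unusedSectionVars false

noncomputable section

namespace Fermat.Agent.TW56.Ind

open _root_.Fermat.Agent.CFT.Pos Module CategoryTheory Polynomial

section Gen

variable {k : Type} [Field k] {G : Type} [Group G]

/-- there is a bijective morphism `X ⟶ Y`. -/
def Fam_Iso (X Y : Rep.{0} k G) : Prop := ∃ e : X ⟶ Y, Function.Bijective e.hom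

lemma Fam_Iso_refl (X : Rep.{0} k G) : Fam_Iso X X :=
  ⟨Rep.ofHom ⟨LinearMap.id, fun _ => rfl⟩, Function.bijective_id⟩

lemma Fam_Iso_symm {X Y : Rep.{0} k G} (h : Fam_Iso X Y) : Fam_Iso Y X := by
  obtain ⟨e, he⟩ := h
  let E : X ≃ₗ[k] Y := LinearEquiv.ofBijective e.hom.toLinearMap he
  have hE : ∀ x, E x = e.hom x := fun _ => rfl
  refine ⟨Rep.ofHom ⟨E.symm.toLinearMap, fun g => LinearMap.ext fun y => ?_⟩, E.symm.bijective⟩
  show E.symm (Y.ρ g y) = X.ρ g (E.symm y)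
  apply E.injective
  rw [E.apply_symm_apply, hE, Rep.hom_comm_apply, ← hE, E.apply_symm_apply]

lemma Fam_Iso_trans {X Y Z : Rep.{0} k G} (h : Fam_Iso X Y) (h' : Fam_Iso Y Z) : Fam_Iso X Z := by
  obtain ⟨e, he⟩ := h
  obtain ⟨e', he'⟩ := h'
  refine ⟨Rep.ofHom ⟨e'.hom.toLinearMap ∘ₗ e.hom.toLinearMap, fun g => LinearMap.ext fun x => ?_⟩,
    he'.comp he⟩
  show e'.hom (e.hom (X.ρ g x)) = Z.ρ g (e'.hom (e.hom x))
  rw [Rep.hom_comm_apply, Rep.hom_comm_apply]

lemma Fam_isSimp_of_iso {X Y : Rep.{0} k G} (h : Fam_Iso X Y) (hX : IsSimp X) : IsSimp Y := by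
  obtain ⟨e, he⟩ := h
  have := hX.1
  refine ⟨he.1.nontrivial, fun B hB => ?_⟩
  have hst : Stable X (B.comap e.hom.toLinearMap) := by
    intro g x hx
    show e.hom (X.ρ g x) ∈ B
    rw [Rep.hom_comm_apply]
    exact hB g hx
  have hmc : (B.comap e.hom.toLinearMap).map e.hom.toLinearMap = B :=
    Submodule.map_comap_eq_of_surjective he.2 B
  rcases hX.2 _ hst with h0 | h1
  · left
    rw [← hmc, h0, Submodule.map_bot]
  · right
    rw [← hmc, h1, Submodule.map_top, LinearMap.range_eq_top]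
    exact he.2

lemma Fam_ker_stable {X Y : Rep.{0} k G} (π : X ⟶ Y) :
    Stable X (LinearMap.ker π.hom.toLinearMap) := by
  intro g x hx
  show π.hom (X.ρ g x) = 0
  rw [Rep.hom_comm_apply]
  have : π.hom x = 0 := hx
  rw [this, map_zero]

lemma Fam_quot_iso {X Y : Rep.{0} k G} (π : X ⟶ Y) (hπ : Function.Surjective π.hom) :
    Fam_Iso (Rep.quotient X (LinearMap.ker π.hom.toLinearMap) (Fam_ker_stable π)) Y := by
  let E := LinearMap.quotKerEquivOfSurjective π.hom.toLinearMap hπ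
  refine ⟨Rep.ofHom ⟨E.toLinearMap, fun g => LinearMap.ext fun y => ?_⟩, E.bijective⟩
  obtain ⟨x, rfl⟩ := Submodule.mkQ_surjective _ y
  exact Rep.hom_comm_apply π g x

lemma Fam_goodW_quot {W : Subgroup G} {X : Rep.{0} k G} (hX : GoodW W X) (K : Submodule k X)
    (hK : Stable X K) : GoodW W (Rep.quotient X K hK) := by
  have := hX.1
  refine ⟨inferInstanceAs (Module.Finite k (X ⧸ K)), fun w hw y => ?_⟩
  obtain ⟨x, rfl⟩ := Submodule.mkQ_surjective _ y
  show K.mkQ (X.ρ w x) = K.mkQ x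
  rw [hX.2 w hw x]

end Gen

section Pi

variable {k : Type} [Field k] {G : Type} [Group G] (W : Subgroup G) [W.Normal] [W.FiniteIndex]
  (S : Rep.{0} k G) (hS : TrivOn W S) (x : S)

/-- `c ↦ c x`. -/
def Fam_act (c : G ⧸ W) : S := S.ρ c.out x

include hS in
lemma Fam_act_mk (g : G) : Fam_act W S x (g : G ⧸ W) = S.ρ g x := by
  obtain ⟨h, hh⟩ := QuotientGroup.mk_out_eq_mul W g
  rw [Fam_act, hh, map_mul, Module.End.mul_apply, hS h.1 h.2]

include hS in
lemma Fam_act_smul (g : G) (c : G ⧸ W) : Fam_act W S x (g • c) = S.ρ g (Fam_act W S x c) := by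
  induction c using QuotientGroup.induction_on with
  | H a =>
    have : g • (a : G ⧸ W) = ((g * a : G) : G ⧸ W) := rfl
    rw [this, Fam_act_mk W S hS, Fam_act_mk W S hS, map_mul, Module.End.mul_apply]

/-- `φ ↦ ∑_c φ c • c x`. -/
def Fam_piLin : (G ⧸ W → k) →ₗ[k] S :=
  letI : Fintype (G ⧸ W) := Fintype.ofFinite _
  ∑ c : G ⧸ W, (LinearMap.proj c : (G ⧸ W → k) →ₗ[k] k).smulRight (Fam_act W S x c)

lemma Fam_piLin_apply [Fintype (G ⧸ W)] (φ : G ⧸ W → k) :
    Fam_piLin W S x φ = ∑ c : G ⧸ W, φ c • Fam_act W S x c := by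
  rw [Fam_piLin, LinearMap.sum_apply]
  refine Finset.sum_congr (by ext; simp) fun c _ => rfl

/-- the morphism `perm W ⟶ S`. -/
def Fam_pi : (perm W : Rep.{0} k G) ⟶ S :=
  Rep.ofHom ⟨Fam_piLin W S x, fun g => LinearMap.ext fun φ => by
    let _ : Fintype (G ⧸ W) := Fintype.ofFinite _
    show Fam_piLin W S x ((perm W : Rep.{0} k G).ρ g φ) = S.ρ g (Fam_piLin W S x φ)
    rw [Fam_piLin_apply, Fam_piLin_apply, map_sum,
      ← Equiv.sum_comp (MulAction.toPerm g : Equiv.Perm (G ⧸ W))]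
    refine Finset.sum_congr rfl fun c _ => ?_
    rw [MulAction.toPerm_apply, Fam_act_smul W S hS, map_smul]
    congr 1
    show φ (g⁻¹ • g • c) = φ c
    rw [inv_smul_smul]⟩

lemma Fam_pi_single : (Fam_pi W S hS x).hom
    (show (perm W : Rep.{0} k G) from
      (open Classical in Pi.single ((1 : G) : G ⧸ W) (1 : k) : G ⧸ W → k)) = x := by
  classical
  let _ : Fintype (G ⧸ W) := Fintype.ofFinite _
  show Fam_piLin W S x (Pi.single ((1 : G) : G ⧸ W) (1 : k)) = x
  rw [Fam_piLin_apply, Finset.sum_eq_single ((1 : G) : G ⧸ W)]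
  · rw [Pi.single_eq_same, one_smul, Fam_act_mk W S hS, map_one, Module.End.one_apply]
  · intro c _ hc
    rw [Pi.single_eq_of_ne hc, zero_smul]
  · intro h
    exact absurd (Finset.mem_univ _) h

lemma Fam_pi_surjective (hsimp : IsSimp S) (hx : x ≠ 0) :
    Function.Surjective (Fam_pi W S hS x).hom := by
  have hst : Stable S (LinearMap.range (Fam_pi W S hS x).hom.toLinearMap) := by
    rintro g _ ⟨φ, rfl⟩
    exact ⟨(perm W : Rep.{0} k G).ρ g φ, Rep.hom_comm_apply (Fam_pi W S hS x) g φ⟩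
  rcases hsimp.2 _ hst with h0 | h1
  · exfalso
    apply hx
    have : x ∈ LinearMap.range (Fam_pi W S hS x).hom.toLinearMap := ⟨_, Fam_pi_single W S hS x⟩
    rw [h0] at this
    exact (Submodule.mem_bot k).1 this
  · exact LinearMap.range_eq_top.1 h1

end Pi

theorem stmt_fam : Stmt_fam := by
  intro p _ G _ W _ _
  let R : Rep.{0} (ZMod p) G := perm W
  have hR : GoodW W R := goodW_perm le_rfl
  have hfinR : Finite R := inferInstanceAs (Finite (G ⧸ W → ZMod p))
  have hfinSub : Finite (Submodule (ZMod p) R) :=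
    Finite.of_injective (fun K : Submodule (ZMod p) R => (K : Set R)) SetLike.coe_injective
  let ι₁ : Type := {K : Submodule (ZMod p) R // ∃ h : Stable R K, IsSimp (Rep.quotient R K h)}
  let T₁ : ι₁ → Rep.{0} (ZMod p) G := fun K => Rep.quotient R K.1 K.2.choose
  let s : Setoid ι₁ :=
    { r := fun K K' => Fam_Iso (T₁ K) (T₁ K')
      iseqv := ⟨fun K => Fam_Iso_refl _, fun h => Fam_Iso_symm h,
        fun h h' => Fam_Iso_trans h h'⟩ }
  have hfin : Finite (Quotient s) := inferInstance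
  refine ⟨Quotient s, Fintype.ofFinite _, fun i => T₁ i.out, ⟨fun i => ?_, fun i => ?_,
    fun i j e he => ?_⟩, fun S hS hsimp => ?_⟩
  · exact Fam_goodW_quot hR _ _
  · exact i.out.2.choose_spec
  · exact Quotient.out_equiv_out.1 (show s i.out j.out from ⟨e, he⟩)
  · have := hsimp.1
    obtain ⟨x, hx⟩ := exists_ne (0 : S)
    have hsurj := Fam_pi_surjective W S hS.2 x hsimp hx
    have hiso := Fam_quot_iso (Fam_pi W S hS.2 x) hsurj
    let K₁ : ι₁ := ⟨LinearMap.ker (Fam_pi W S hS.2 x).hom.toLinearMap, Fam_ker_stable _,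
      Fam_isSimp_of_iso (Fam_Iso_symm hiso) hsimp⟩
    have h1 : Fam_Iso (T₁ (Quotient.mk s K₁).out) (T₁ K₁) := Quotient.mk_out K₁
    obtain ⟨e, he⟩ := Fam_Iso_symm (Fam_Iso_trans h1 hiso)
    exact ⟨Quotient.mk s K₁, e, he⟩

end Fermat.Agent.TW56.Ind

end
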