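/-
TEAM TW56 -> S56, block [IND] (helper87): assembly of `Stmt_IND` from the packages.
-/
import Fermat.Agent.TW56.Ind.Interface

set_option autoImplicit false

noncomputable section

namespace Fermat.Agent.TW56.Ind

open _root_.Fermat.Agent.CFT.Pos Module CategoryTheory Polynomial

lemma Final_coeff_zero (N : ℕ) : (polyP N).coeff 0 ≠ 0 := by
  rw [Polynomial.coeff_zero_eq_eval_zero, polyP, Polynomial.eval_prod]
  refine Finset.prod_ne_zero_iff.2 fun v hv => ?_
  have h1 : 1 ≤ v := (Finset.mem_Icc.1 hv).1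
  simp only [eval_sub, eval_X, eval_C]
  omega

/-- the assembly. -/
theorem ind_of_packages (hBN : Stmt_BN) (hcpIt : Stmt_cpIt) (hcomb : Stmt_comb)
    (htwProj : Stmt_twProj) (hmapSigma : Stmt_mapSigma) (hHc : Stmt_Hc) : Stmt_IND := by
  intro p _ G _ W _ _ f hadd hkill X hX
  obtain ⟨hH1, hH2⟩ := hHc p G W
  have : Finite (G ⧸ W) := Subgroup.finite_quotient_of_finiteIndex
  let _ : Fintype (Kap p W) := Fintype.ofFinite _
  have hfi : ∀ c : Kap p W, (Hc W c.1).FiniteIndex := fun c =>
    Subgroup.finiteIndex_of_le (hH1 c.1).1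
  have hfq : ∀ c : Kap p W, Finite (G ⧸ Hc W c.1) := fun c =>
    Subgroup.finite_quotient_of_finiteIndex
  have hfA : Finite (setA p W) := inferInstance
  have hstep := fun (Y : Rep.{0} (ZMod p) G) (hY : GoodW W Y) =>
    hmapSigma (ZMod p) G W (Kap p W) (fun c => Hc W c.1) (fun c => (hH1 c.1).1) Y hY
  have hgood : ∀ j, GoodW W (itT (setA p W) X j) := by
    intro j
    induction j with
    | zero => exact hX
    | succ j ih => exact (hstep _ ih).1
  have hzero : ∀ j, f (itT (setA p W) X (j + 1)) = 0 := by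
    intro j
    have h1 := (hstep _ (hgood j)).2 f hadd
    rw [itT_succ, h1]
    refine Finset.sum_eq_zero fun c _ => ?_
    refine htwProj p G W f hadd hkill _ (hH1 c.1).1 ?_ _ (hgood j)
    rw [(hH1 c.1).2]
    exact c.2
  have hfin : Module.Finite (ZMod p) X := hX.1
  have key := hBN p G W (Fin (Nat.card (setA p W) + 1)) (fun j => itT (setA p W) X j)
    (fun j => ((polyP (Nat.card (setA p W))).coeff j).toNat)
    (fun j => (- (polyP (Nat.card (setA p W))).coeff j).toNat) (fun j => hgood j)
    (by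
      intro g hg
      have h1 := hcomb (ZMod p) X (X.ρ g) (setA p W) (MulAction.toPerm g) (hH2 g hg)
      simp only [hcpIt (ZMod p) G (setA p W) X g]
      exact h1) f hadd
  rw [Fin.sum_univ_succ, Fin.sum_univ_succ] at key
  have hz : ∀ (e : Fin (Nat.card (setA p W) + 1) → ℕ),
      ∑ i : Fin (Nat.card (setA p W)), (e i.succ : ℤ) * f (itT (setA p W) X (i.succ : ℕ)) = 0 := by
    intro e
    refine Finset.sum_eq_zero fun i _ => ?_
    rw [Fin.val_succ, hzero, mul_zero]
  rw [hz (fun j => ((polyP (Nat.card (setA p W))).coeff j).toNat),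
    hz (fun j => (- (polyP (Nat.card (setA p W))).coeff j).toNat)] at key
  simp only [Fin.val_zero, add_zero, itT_zero] at key
  have hc := Final_coeff_zero (Nat.card (setA p W))
  have h2 : ((polyP (Nat.card (setA p W))).coeff 0) * f X = 0 := by
    have h3 := Int.toNat_sub_toNat_neg ((polyP (Nat.card (setA p W))).coeff 0)
    calc ((polyP (Nat.card (setA p W))).coeff 0) * f X
        = ((((polyP (Nat.card (setA p W))).coeff 0).toNat : ℤ)
            - ((- (polyP (Nat.card (setA p W))).coeff 0).toNat : ℤ)) * f X := by rw [h3]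
      _ = 0 := by rw [sub_mul, key, sub_self]
  exact (mul_eq_zero.1 h2).resolve_left hc

end Fermat.Agent.TW56.Ind

end
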