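/-
TEAM TW56 -> S56, block [IND], P5 : `Map(⨆_y G/H_y, Y)` is good, and an additive function of it is the
sum of its values on the `tw (H y) Y`.
-/
import Fermat.Agent.TW56.Ind.Interface

set_option autoImplicit false

noncomputable section

namespace Fermat.Agent.TW56.Ind

open _root_.Fermat.Agent.CFT.Pos Module CategoryTheory Polynomial

section MapSigma

variable {k : Type} [Field k] {G : Type} [Group G] {κ : Type} (H : κ → Subgroup G)
  (Y : Rep.{0} k G)

/-- the functions vanishing on the components outside `s`. -/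
def MapSigma_sub (s : Finset κ) : Submodule k (mapRep (Σ y, G ⧸ H y) Y) where
  carrier := {F | ∀ a : Σ y, G ⧸ H y, a.1 ∉ s → F a = 0}
  add_mem' := by
    intro F F' h h' a ha
    show F a + F' a = 0
    rw [h a ha, h' a ha, add_zero]
  zero_mem' := fun _ _ => rfl
  smul_mem' := by
    intro c F h a ha
    show c • F a = 0
    rw [h a ha, smul_zero]

lemma MapSigma_stable (s : Finset κ) (g : G) :
    MapSigma_sub H Y s ≤ (MapSigma_sub H Y s).comap ((mapRep (Σ y, G ⧸ H y) Y).ρ g) := by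
  intro F hF a ha
  show Y.ρ g (F (g⁻¹ • a)) = 0
  rw [hF (g⁻¹ • a) ha, map_zero]

/-- `M_s`. -/
abbrev MapSigma_M (s : Finset κ) : Rep.{0} k G :=
  Rep.subrepresentation (mapRep (Σ y, G ⧸ H y) Y) (MapSigma_sub H Y s) (MapSigma_stable H Y s)

lemma MapSigma_mono {s t : Finset κ} (h : s ⊆ t) : MapSigma_sub H Y s ≤ MapSigma_sub H Y t :=
  fun _ hF a ha => hF a fun h' => ha (h h')

/-- the inclusion `M_s ⟶ M_t`. -/
def MapSigma_incl {s t : Finset κ} (h : s ⊆ t) : MapSigma_M H Y s ⟶ MapSigma_M H Y t :=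
  Rep.ofHom ⟨Submodule.inclusion (MapSigma_mono H Y h), fun _ => LinearMap.ext fun _ => rfl⟩

/-- the inclusion `M_s ⟶ Map(A, Y)`. -/
def MapSigma_val (s : Finset κ) : MapSigma_M H Y s ⟶ mapRep (Σ y, G ⧸ H y) Y :=
  Rep.ofHom ⟨(MapSigma_sub H Y s).subtype, fun _ => LinearMap.ext fun _ => rfl⟩

/-- the restriction to the component `y`. -/
def MapSigma_res (s : Finset κ) (y : κ) : MapSigma_M H Y s ⟶ tw (H y) Y :=
  Rep.ofHom ⟨{ toFun := fun F c => F.1 ⟨y, c⟩
               map_add' := fun _ _ => rfl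
               map_smul' := fun _ _ => rfl }, fun _ => LinearMap.ext fun _ => rfl⟩

lemma MapSigma_isSES [DecidableEq κ] (s : Finset κ) (y : κ) (hy : y ∉ s) :
    IsSES (MapSigma_incl H Y (Finset.subset_insert y s)) (MapSigma_res H Y (insert y s) y) where
  inj F F' h := by
    have h1 : (((MapSigma_incl H Y (Finset.subset_insert y s)).hom F :
        MapSigma_sub H Y (insert y s)) : (Σ y, G ⧸ H y) → Y)
      = (((MapSigma_incl H Y (Finset.subset_insert y s)).hom F' :
        MapSigma_sub H Y (insert y s)) : (Σ y, G ⧸ H y) → Y) := congrArg Subtype.val h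
    exact Subtype.ext h1
  surj φ := by
    refine ⟨⟨fun a => if h : a.1 = y then φ (h ▸ a.2) else 0, ?_⟩, ?_⟩
    · intro a ha
      have h1 : a.1 ≠ y := fun h => ha (h ▸ Finset.mem_insert_self _ _)
      exact dif_neg h1
    · funext c
      exact dif_pos rfl
  exact F := by
    constructor
    · intro hF
      refine ⟨⟨F.1, ?_⟩, Subtype.ext rfl⟩
      rintro ⟨z, c⟩ ha
      by_cases hz : z = y
      · subst hz
        exact congrFun hF c
      · exact F.2 ⟨z, c⟩ fun h => (Finset.mem_insert.1 h).elim hz ha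
    · rintro ⟨F', rfl⟩
      funext c
      exact F'.2 ⟨y, c⟩ hy

variable {H Y}

lemma MapSigma_good {W : Subgroup G} [W.Normal] [W.FiniteIndex] [Finite κ] (hH : ∀ y, W ≤ H y)
    (hY : GoodW W Y) : GoodW W (mapRep (Σ y, G ⧸ H y) Y) := by
  have := hY.1
  have : ∀ y, (H y).FiniteIndex := fun y => Subgroup.finiteIndex_of_le (hH y)
  refine ⟨Module.Finite.pi, ?_⟩
  rintro w hw F
  funext ⟨y, c⟩
  exact congrFun (trivOn_tw (hH y) hY.2 w hw fun c => F ⟨y, c⟩) c

lemma MapSigma_goodM {W : Subgroup G} [W.Normal] [W.FiniteIndex] [Finite κ] (hH : ∀ y, W ≤ H y)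
    (hY : GoodW W Y) (s : Finset κ) : GoodW W (MapSigma_M H Y s) := by
  have h1 := MapSigma_good hH hY
  have := h1.1
  refine ⟨inferInstanceAs (Module.Finite k (MapSigma_sub H Y s)), fun w hw F => Subtype.ext ?_⟩
  exact h1.2 w hw F.1

end MapSigma

/-- **P5**. -/
theorem stmt_mapSigma (h1 : Stmt_addBasic) : Stmt_mapSigma := by
  classical
  intro k _ G _ W _ _ κ _ H hH Y hY
  refine ⟨MapSigma_good hH hY, fun f hf => ?_⟩
  obtain ⟨hz, hiso⟩ := h1 k G W f hf
  have : ∀ y, (H y).FiniteIndex := fun y => Subgroup.finiteIndex_of_le (hH y)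
  have key : ∀ s : Finset κ, f (MapSigma_M H Y s) = ∑ y ∈ s, f (tw (H y) Y) := by
    intro s
    induction s using Finset.induction_on with
    | empty =>
      rw [Finset.sum_empty]
      apply hz
      exact ⟨fun F F' => Subtype.ext (funext fun a =>
        (F.2 a (Finset.notMem_empty _)).trans (F'.2 a (Finset.notMem_empty _)).symm)⟩
    | insert y s hy ih =>
      rw [Finset.sum_insert hy, hf _ _ _ _ _ (MapSigma_goodM hH hY s)
        (MapSigma_goodM hH hY (insert y s)) (goodW_tw (hH y) hY) (MapSigma_isSES H Y s y hy), ih,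
        add_comm]
  rw [← key Finset.univ]
  refine (hiso _ _ (MapSigma_val H Y Finset.univ) ⟨fun _ _ h => Subtype.ext h, fun F => ?_⟩
    (MapSigma_goodM hH hY _) (MapSigma_good hH hY)).symm
  exact ⟨⟨F, fun a ha => absurd (Finset.mem_univ _) ha⟩, rfl⟩

end Fermat.Agent.TW56.Ind

end
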