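/-
TEAM TW56 -> S56, block [IND].  P1 : Maschke for `H`-stable subspaces, `[H : W]` prime to `p`
(`Stmt_maschke`).
-/
import Fermat.Agent.TW56.Ind.Interface

set_option autoImplicit false

noncomputable section

namespace Fermat.Agent.TW56.Ind

open _root_.Fermat.Agent.CFT.Pos Module CategoryTheory Polynomial

section

variable {k : Type} [Field k] {G : Type} [Group G]

/-- the conjugate `ρ(h) π₀ ρ(h)⁻¹`. -/
def Maschke_T (Y : Rep.{0} k G) (π₀ : Y →ₗ[k] Y) (h : G) : Y →ₗ[k] Y :=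
  Y.ρ h ∘ₗ π₀ ∘ₗ Y.ρ h⁻¹

lemma Maschke_T_apply (Y : Rep.{0} k G) (π₀ : Y →ₗ[k] Y) (h : G) (y : Y) :
    Maschke_T Y π₀ h y = Y.ρ h (π₀ (Y.ρ h⁻¹ y)) := rfl

lemma Maschke_ρ_mul (Y : Rep.{0} k G) (g h : G) (y : Y) : Y.ρ (g * h) y = Y.ρ g (Y.ρ h y) := by
  rw [map_mul]; rfl

lemma Maschke_T_mul_right {W : Subgroup G} (Y : Rep.{0} k G) (hW : TrivOn W Y) (π₀ : Y →ₗ[k] Y)
    (h w : G) (hw : w ∈ W) : Maschke_T Y π₀ (h * w) = Maschke_T Y π₀ h := by
  apply LinearMap.ext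
  intro y
  rw [Maschke_T_apply, Maschke_T_apply, mul_inv_rev, Maschke_ρ_mul, Maschke_ρ_mul,
    hW w hw, hW w⁻¹ (W.inv_mem hw)]

lemma Maschke_T_conj (Y : Rep.{0} k G) (π₀ : Y →ₗ[k] Y) (g h : G) (y : Y) :
    Y.ρ g (Maschke_T Y π₀ h y) = Maschke_T Y π₀ (g * h) (Y.ρ g y) := by
  rw [Maschke_T_apply, Maschke_T_apply, mul_inv_rev, Maschke_ρ_mul, Maschke_ρ_mul,
    ← Maschke_ρ_mul Y g⁻¹ g, inv_mul_cancel, map_one]
  rfl

end

theorem stmt_maschke : Stmt_maschke := by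
  intro p _ G _ W _ _ H hWH hp Y hW B₁ B h₁ hB₁ hB
  classical
  -- the finite quotient
  have hfinidx : (W.subgroupOf H).FiniteIndex := inferInstance
  have : Finite (H ⧸ W.subgroupOf H) := Subgroup.finite_quotient_of_finiteIndex
  have : Fintype (H ⧸ W.subgroupOf H) := Fintype.ofFinite _
  have hm : ((Fintype.card (H ⧸ W.subgroupOf H) : ℕ) : ZMod p) ≠ 0 := by
    rw [Ne, ZMod.natCast_eq_zero_iff, ← Nat.card_eq_fintype_card]
    exact hp
  -- a linear projection onto `B₁`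
  obtain ⟨f, hf⟩ := LinearMap.exists_leftInverse_of_injective B₁.subtype
    (LinearMap.ker_eq_bot.2 B₁.injective_subtype)
  let π₀ : Y →ₗ[ZMod p] Y := B₁.subtype ∘ₗ f
  have hπ₀mem : ∀ y, π₀ y ∈ B₁ := fun y => (f y).2
  have hπ₀id : ∀ b ∈ B₁, π₀ b = b := by
    intro b hb
    have := LinearMap.congr_fun hf ⟨b, hb⟩
    exact congrArg Subtype.val this
  -- the function on the quotient
  let T' : H ⧸ W.subgroupOf H → (Y →ₗ[ZMod p] Y) := fun c =>
    Quotient.liftOn' c (fun h : H => Maschke_T Y π₀ (h : G)) (by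
      intro a b hab
      have hab' : a⁻¹ * b ∈ W.subgroupOf H := QuotientGroup.leftRel_apply.1 hab
      have hab'' : ((a : G))⁻¹ * (b : G) ∈ W := hab'
      have e : (b : G) = (a : G) * (((a : G))⁻¹ * (b : G)) := by group
      show Maschke_T Y π₀ (a : G) = Maschke_T Y π₀ (b : G)
      rw [e, Maschke_T_mul_right Y hW π₀ _ _ hab''])
  have hT' : ∀ h : H, T' (QuotientGroup.mk h) = Maschke_T Y π₀ (h : G) := fun _ => rfl
  let π : Y →ₗ[ZMod p] Y :=
    ((Fintype.card (H ⧸ W.subgroupOf H) : ℕ) : ZMod p)⁻¹ • ∑ c : H ⧸ W.subgroupOf H, T' c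
  have hπ : ∀ y, π y = ((Fintype.card (H ⧸ W.subgroupOf H) : ℕ) : ZMod p)⁻¹ •
      ∑ c : H ⧸ W.subgroupOf H, T' c y := by
    intro y
    show (((Fintype.card (H ⧸ W.subgroupOf H) : ℕ) : ZMod p)⁻¹ •
      ∑ c : H ⧸ W.subgroupOf H, T' c) y = _
    rw [LinearMap.smul_apply, LinearMap.sum_apply]
  have ha : ∀ y, π y ∈ B₁ := by
    intro y
    rw [hπ]
    refine B₁.smul_mem _ (B₁.sum_mem fun c _ => ?_)
    induction c using QuotientGroup.induction_on with
    | H h =>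
      rw [hT', Maschke_T_apply]
      exact hB₁ h h.2 _ (hπ₀mem _)
  have hb : ∀ b ∈ B₁, π b = b := by
    intro b hb
    rw [hπ]
    have : ∀ c : H ⧸ W.subgroupOf H, T' c b = b := by
      intro c
      induction c using QuotientGroup.induction_on with
      | H h =>
        rw [hT', Maschke_T_apply, hπ₀id _ (hB₁ _ (H.inv_mem h.2) b hb), ← Maschke_ρ_mul,
          mul_inv_cancel, map_one]
        rfl
    rw [Finset.sum_congr rfl fun c _ => this c, Finset.sum_const, Finset.card_univ,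
      ← Nat.cast_smul_eq_nsmul (ZMod p), smul_smul, inv_mul_cancel₀ hm, one_smul]
  have hc : ∀ g ∈ H, ∀ y, Y.ρ g (π y) = π (Y.ρ g y) := by
    intro g hg y
    rw [hπ, hπ, map_smul, map_sum]
    congr 1
    refine Fintype.sum_equiv (MulAction.toPerm (⟨g, hg⟩ : H)) _ _ fun c => ?_
    induction c using QuotientGroup.induction_on with
    | H h =>
      rw [hT', Maschke_T_conj]
      rfl
  refine ⟨B ⊓ LinearMap.ker π, inf_le_left, ?_, ?_, ?_⟩
  · intro g hg b hbB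
    refine ⟨hB g hg b hbB.1, ?_⟩
    rw [SetLike.mem_coe, LinearMap.mem_ker, ← hc g hg, LinearMap.mem_ker.1 hbB.2, map_zero]
  · rw [eq_bot_iff]
    rintro b ⟨hb1, -, hb2⟩
    rw [Submodule.mem_bot, ← hb b hb1]
    exact hb2
  · apply le_antisymm (sup_le h₁ inf_le_left)
    intro b hbB
    have e : b = π b + (b - π b) := by abel
    rw [e]
    refine Submodule.add_mem_sup (ha b) ⟨B.sub_mem hbB (h₁ (ha b)), ?_⟩
    rw [SetLike.mem_coe, LinearMap.mem_ker, map_sub, hb _ (ha b), sub_self]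

end Fermat.Agent.TW56.Ind

end
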