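/-
TEAM TW56 -> S56, block [IND], task IND-B2 : multiplicity vectors (`Stmt_mult`).
-/
import Fermat.Agent.TW56.Ind.Interface

set_option autoImplicit false

noncomputable section

namespace Fermat.Agent.TW56.Ind

open _root_.Fermat.Agent.CFT.Pos Module CategoryTheory Polynomial

theorem stmt_mult (h1 : Stmt_addBasic) (h2 : Stmt_simpleSub) (h3 : Stmt_cpSES) (h4 : Stmt_cpIso) :
    Stmt_mult := by
  intro k _ G _ W ι _ T hT hC
  classical
  have key : ∀ (n : ℕ) (M : Rep.{0} k G), GoodW W M → finrank k M = n →
      ∃ m : ι → ℕ, (∀ f : Rep.{0} k G → ℤ, IsAdd W f → f M = ∑ i, (m i : ℤ) * f (T i)) ∧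
        (∀ g, cp M g = ∏ i, cp (T i) g ^ m i) := by
    intro n
    induction n using Nat.strong_induction_on with
    | _ n ih =>
      intro M hM hn
      by_cases hnt : Nontrivial M
      · obtain ⟨S, Q, i, q, hses, hS, hSg, hQg, hlt⟩ := h2 k G W M hM hnt
        obtain ⟨i₀, e, he⟩ := hC S hSg hS
        obtain ⟨m', hm1, hm2⟩ := ih (finrank k Q) (hn ▸ hlt) Q hQg rfl
        refine ⟨fun j => m' j + if j = i₀ then 1 else 0, fun f hf => ?_, fun g => ?_⟩
        · rw [hf S M Q i q hSg hM hQg hses, (h1 k G W f hf).2 S (T i₀) e he hSg (hT.good i₀),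
            hm1 f hf]
          simp only [Nat.cast_add, Nat.cast_ite, Nat.cast_one, Nat.cast_zero, add_mul, ite_mul,
            one_mul, zero_mul, Finset.sum_add_distrib, Finset.sum_ite_eq', Finset.mem_univ,
            if_true]
          ring
        · rw [h3 k G S M Q i q hSg.1 hM.1 hQg.1 hses g,
            (h4 k G).1 S (T i₀) e he hSg.1 (hT.good i₀).1 g, hm2 g]
          simp only [pow_add, pow_ite, pow_one, pow_zero, Finset.prod_mul_distrib,
            Finset.prod_ite_eq', Finset.mem_univ, if_true]
          ring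
      · have hsub : Subsingleton M := not_nontrivial_iff_subsingleton.1 hnt
        refine ⟨fun _ => 0, fun f hf => ?_, fun g => ?_⟩
        · rw [(h1 k G W f hf).1 M hsub]
          simp
        · rw [(h4 k G).2 M hsub g]
          simp
  intro M hM
  exact key _ M hM rfl

end Fermat.Agent.TW56.Ind

end
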