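/-
TEAM TW56 -> S56, block [IND], package C6 : numbers of fixed points on sigma types and on sets of
functions (`Stmt_nfix`).
-/
import Fermat.Agent.TW56.Ind.Interface

set_option autoImplicit false

noncomputable section

namespace Fermat.Agent.TW56.Ind

open _root_.Fermat.Agent.CFT.Pos Module CategoryTheory Polynomial

lemma Nfix_sigma_pow {J : Type} {B : J → Type} (τ : ∀ j, Equiv.Perm (B j)) (n : ℕ) (j : J)
    (b : B j) : ((Equiv.Perm.sigmaCongrRight τ) ^ n) ⟨j, b⟩ = ⟨j, ((τ j) ^ n) b⟩ := by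
  induction n generalizing b with
  | zero => rfl
  | succ n ih =>
    rw [pow_succ, pow_succ, Equiv.Perm.mul_apply, Equiv.Perm.mul_apply]
    exact ih (τ j b)

lemma Nfix_arrow_pow {A : Type} (σ : Equiv.Perm A) (j n : ℕ) (F : Fin j → A) (x : Fin j) :
    ((permArrow σ j) ^ n) F x = (σ ^ n) (F x) := by
  induction n generalizing F with
  | zero => rfl
  | succ n ih =>
    rw [pow_succ, pow_succ, Equiv.Perm.mul_apply, Equiv.Perm.mul_apply]
    exact ih (permArrow σ j F)

/-- the fixed points on a sigma type. -/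
def Nfix_sigmaEquiv {J : Type} {B : J → Type} (τ : ∀ j, Equiv.Perm (B j)) (n : ℕ) :
    {x : Σ j, B j // ((Equiv.Perm.sigmaCongrRight τ) ^ n) x = x} ≃
      Σ j, {b : B j // ((τ j) ^ n) b = b} where
  toFun x := ⟨x.1.1, x.1.2, by
    have h := x.2
    obtain ⟨⟨j, b⟩, hx⟩ := x
    rw [Nfix_sigma_pow] at hx
    exact eq_of_heq (Sigma.mk.inj_iff.1 hx).2⟩
  invFun y := ⟨⟨y.1, y.2.1⟩, by rw [Nfix_sigma_pow, y.2.2]⟩
  left_inv _ := rfl
  right_inv _ := rfl

/-- the fixed points on a set of functions. -/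
def Nfix_arrowEquiv {A : Type} (σ : Equiv.Perm A) (j n : ℕ) :
    {F : Fin j → A // ((permArrow σ j) ^ n) F = F} ≃ (Fin j → {a : A // (σ ^ n) a = a}) where
  toFun F x := ⟨F.1 x, by rw [← Nfix_arrow_pow, F.2]⟩
  invFun G := ⟨fun x => (G x).1, funext fun x => by rw [Nfix_arrow_pow, (G x).2]⟩
  left_inv _ := rfl
  right_inv _ := rfl

theorem stmt_nfix : Stmt_nfix := by
  refine ⟨?_, ?_⟩
  · intro J _ B _ τ n
    unfold nfix
    rw [Nat.card_congr (Nfix_sigmaEquiv τ n), Nat.card_sigma]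
  · intro A _ σ j n
    unfold nfix
    rw [Nat.card_congr (Nfix_arrowEquiv σ j n), Nat.card_fun, Nat.card_fin]

end Fermat.Agent.TW56.Ind

end
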