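/-
TEAM TW56 -> S56, block [IND], task IND-B6 (helper92): the characteristic polynomials determine the
multiplicities.
-/
import Fermat.Agent.TW56.Ind.Interface

set_option autoImplicit false

noncomputable section

namespace Fermat.Agent.TW56.Ind

open _root_.Fermat.Agent.CFT.Pos Module CategoryTheory Polynomial

/-- `nextCoeff charpoly = - trace`. -/
theorem Num_nextCoeff_charpoly {k V : Type*} [Field k] [AddCommGroup V] [Module k V]
    [Module.Finite k V] (f : V →ₗ[k] V) : f.charpoly.nextCoeff = - LinearMap.trace k V f := by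
  rw [LinearMap.charpoly_def, LinearMap.trace_eq_matrix_trace k (Module.Free.chooseBasis k V) f,
    Matrix.trace_eq_neg_charpoly_nextCoeff, neg_neg]

/-- the abstract statement on families of monic polynomials over `𝔽_p`. -/
theorem Num_abs {p : ℕ} [Fact p.Prime] {ι γ : Type*} [Fintype ι] (P : ι → γ → (ZMod p)[X])
    (hP : ∀ i g, (P i g).Monic)
    (hLI : ∀ c : ι → ZMod p, (∀ g, ∑ i, c i * (P i g).nextCoeff = 0) → ∀ i, c i = 0) :
    ∀ (B : ℕ) (m m' : ι → ℕ), (∀ i, m i ≤ B) → (∀ i, m' i ≤ B) →
      (∀ g, ∏ i, P i g ^ m i = ∏ i, P i g ^ m' i) → m = m' := by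
  intro B
  induction B using Nat.strong_induction_on with
  | _ B ih =>
    intro m m' hm hm' hprod
    have hp : p.Prime := Fact.out
    have hcong : ∀ i, (m i : ZMod p) = (m' i : ZMod p) := by
      have h0 := hLI (fun i => (m i : ZMod p) - (m' i : ZMod p)) (fun g => by
        have h1 := congrArg Polynomial.nextCoeff (hprod g)
        rw [Monic.nextCoeff_prod _ _ (fun i _ => (hP i g).pow _),
          Monic.nextCoeff_prod _ _ (fun i _ => (hP i g).pow _)] at h1
        simp only [(hP _ g).nextCoeff_pow, nsmul_eq_mul] at h1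
        simp only [sub_mul, Finset.sum_sub_distrib, h1, sub_self])
      intro i
      exact sub_eq_zero.1 (h0 i)
    have hmod : ∀ i, m i % p = m' i % p := fun i => (ZMod.natCast_eq_natCast_iff' _ _ _).1 (hcong i)
    rcases Nat.eq_zero_or_pos B with rfl | hB
    · funext i
      rw [Nat.le_zero.1 (hm i), Nat.le_zero.1 (hm' i)]
    have hdiv : (fun i => m i / p) = (fun i => m' i / p) := by
      refine ih (B / p) (Nat.div_lt_self hB hp.one_lt) _ _ (fun i => Nat.div_le_div_right (hm i))
        (fun i => Nat.div_le_div_right (hm' i)) ?_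
      intro g
      have hdec : ∀ n : ι → ℕ, ∏ i, P i g ^ n i
          = (∏ i, P i g ^ (n i % p)) * (∏ i, P i g ^ (n i / p)) ^ p := by
        intro n
        rw [← Finset.prod_pow, ← Finset.prod_mul_distrib]
        refine Finset.prod_congr rfl fun i _ => ?_
        rw [← pow_mul, ← pow_add, mul_comm, Nat.mod_add_div]
      have h2 := hprod g
      rw [hdec m, hdec m'] at h2
      simp only [hmod] at h2
      have hne : ∏ i, P i g ^ (m' i % p) ≠ 0 :=
        (monic_prod_of_monic _ _ fun i _ => (hP i g).pow _).ne_zero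
      have h3 := mul_left_cancel₀ hne h2
      exact frobenius_inj (ZMod p)[X] p h3
    funext i
    rw [← Nat.mod_add_div (m i) p, ← Nat.mod_add_div (m' i) p, hmod i, congrFun hdiv i]

/-- **B6**. -/
theorem stmt_num (h : Stmt_LI) : Stmt_num := by
  intro p _ G _ W ι _ T hT m m' hprod
  have hfin : ∀ i, Module.Finite (ZMod p) (T i) := fun i => (hT.good i).1
  have hcp : ∀ i g, cp (T i) g = ((T i).ρ g).charpoly := fun i g => cp_eq (T i) g
  refine Num_abs (fun i g => cp (T i) g)
    (fun i g => by rw [hcp]; exact LinearMap.charpoly_monic _) ?_ (∑ i, (m i + m' i)) m m' ?_ ?_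
    hprod
  · intro c hc
    refine h p G W ι T hT c fun g => ?_
    have h1 := hc g
    simp only [hcp, Num_nextCoeff_charpoly, mul_neg, Finset.sum_neg_distrib, neg_eq_zero] at h1
    exact h1
  · intro i
    exact le_trans (Nat.le_add_right _ _) (Finset.single_le_sum (f := fun i => m i + m' i)
      (fun _ _ => Nat.zero_le _) (Finset.mem_univ i))
  · intro i
    exact le_trans (Nat.le_add_left _ _) (Finset.single_le_sum (f := fun i => m i + m' i)
      (fun _ _ => Nat.zero_le _) (Finset.mem_univ i))

end Fermat.Agent.TW56.Ind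

end
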