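/-
TEAM TW56 -> S56, block [IND], task IND-C2 (helper40; architect helper87).
`stmt_opConj : Stmt_opConj`, `stmt_opProd : Stmt_opProd`.
-/
import Fermat.Agent.TW56.Ind.Interface

set_option autoImplicit false

noncomputable section

namespace Fermat.Agent.TW56.Ind

open _root_.Fermat.Agent.CFT.Pos Module CategoryTheory Polynomial

/-- C2. -/
theorem stmt_opConj : Stmt_opConj := by
  intro k _ V _ _ _ u A B _ _ σ τ e h
  have hs : ∀ a, τ.symm (e a) = e (σ.symm a) := fun a => by
    rw [Equiv.symm_apply_eq, ← h, Equiv.apply_symm_apply]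
  have hc : (LinearEquiv.funCongrLeft k V e).conj (opU τ u) = opU σ u := by
    ext F a
    rw [LinearEquiv.conj_apply_apply]
    show u (F (e.symm (τ.symm (e a)))) = u (F (σ.symm a))
    rw [hs, Equiv.symm_apply_apply]
  rw [← hc, LinearEquiv.charpoly_conj]

/-- C4. -/
theorem stmt_opProd : Stmt_opProd := by
  intro k _ V _ _ _ u A B _ _ σ τ
  have hc : (LinearEquiv.curry k V A B).conj (opU (σ.prodCongr τ) u) = opU σ (opU τ u) := by
    ext F a b
    rw [LinearEquiv.conj_apply_apply]
    rfl
  rw [← hc, LinearEquiv.charpoly_conj]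

end Fermat.Agent.TW56.Ind

end
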