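/-
TEAM TW56 -> S56, block [IND], package C3 (helper87, shadow): `opU` on a disjoint union.
-/
import Fermat.Agent.TW56.Ind.Interface

set_option autoImplicit false

noncomputable section

namespace Fermat.Agent.TW56.Ind

open _root_.Fermat.Agent.CFT.Pos Module CategoryTheory Polynomial

lemma OpSigma_det {o : Type} [Fintype o] [DecidableEq o] {n : o → Type} [∀ i, Fintype (n i)]
    [∀ i, DecidableEq (n i)] {R : Type} [CommRing R] (d : ∀ i, Matrix (n i) (n i) R) :
    (Matrix.blockDiagonal' d).det = ∏ i, (d i).det := by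
  let _ : LinearOrder o := LinearOrder.lift' (Fintype.equivFin o) (Fintype.equivFin o).injective
  rw [(Matrix.blockTriangular_blockDiagonal' d).det_fintype]
  refine Finset.prod_congr rfl fun i _ => ?_
  have : (Matrix.blockDiagonal' d).toSquareBlock Sigma.fst i
      = (d i).submatrix (Equiv.sigmaSubtype i) (Equiv.sigmaSubtype i) := by
    ext ⟨⟨a, x⟩, ha⟩ ⟨⟨b, y⟩, hb⟩
    simp only at ha hb
    subst ha
    subst hb
    simp [Matrix.toSquareBlock_def, Matrix.blockDiagonal'_apply, Equiv.sigmaSubtype]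
  rw [this, Matrix.det_submatrix_equiv_self]

/-- the characteristic polynomial of a diagonal endomorphism of a finite product. -/
lemma OpSigma_pi (k : Type) [Field k] (J : Type) [Fintype J] :
    ∀ (M : J → Type) [∀ j, AddCommGroup (M j)] [∀ j, Module k (M j)]
    [∀ j, Module.Finite k (M j)] (f : ∀ j, M j →ₗ[k] M j),
    (LinearMap.pi fun j => f j ∘ₗ LinearMap.proj j : (∀ j, M j) →ₗ[k] (∀ j, M j)).charpoly
      = ∏ j, (f j).charpoly := by
  classical
  intro M _ _ _ f
  let b : ∀ j, Basis (Fin (finrank k (M j))) k (M j) := fun j => Module.finBasis k (M j)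
  let B := Pi.basis b
  rw [← LinearMap.charpoly_toMatrix _ B]
  have h : LinearMap.toMatrix B B (LinearMap.pi fun j => f j ∘ₗ LinearMap.proj j)
      = Matrix.blockDiagonal' fun j => LinearMap.toMatrix (b j) (b j) (f j) := by
    ext ⟨i, x⟩ ⟨j, y⟩
    rw [LinearMap.toMatrix_apply, Matrix.blockDiagonal'_apply]
    by_cases hij : i = j
    · subst hij
      simp [B, LinearMap.toMatrix_apply, Pi.basis_repr, Pi.basis_apply]
    · simp [B, hij, Pi.basis_repr, Pi.basis_apply, Pi.single_eq_of_ne hij]
  rw [h]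
  have h2 : (Matrix.blockDiagonal' fun j => LinearMap.toMatrix (b j) (b j) (f j)).charmatrix
      = Matrix.blockDiagonal' fun j => (LinearMap.toMatrix (b j) (b j) (f j)).charmatrix := by
    ext ⟨i, x⟩ ⟨j, y⟩
    by_cases hij : i = j
    · subst hij
      by_cases hxy : x = y
      · subst hxy
        simp [Matrix.blockDiagonal'_apply, Matrix.charmatrix_apply]
      · have : (⟨i, x⟩ : Σ j, Fin (finrank k (M j))) ≠ ⟨i, y⟩ := by
          intro h
          exact hxy (by simpa using h)
        simp [Matrix.blockDiagonal'_apply, Matrix.charmatrix_apply, hxy, this]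
    · have : (⟨i, x⟩ : Σ j, Fin (finrank k (M j))) ≠ ⟨j, y⟩ := by
        intro h
        exact hij (congrArg Sigma.fst h)
      simp [Matrix.blockDiagonal'_apply, Matrix.charmatrix_apply, hij, this]
  unfold Matrix.charpoly
  rw [h2, OpSigma_det]
  refine Finset.prod_congr rfl fun j _ => ?_
  rw [← LinearMap.charpoly_toMatrix (f j) (b j)]
  rfl

/-- currying. -/
def OpSigma_e (k : Type) [Field k] (V : Type) [AddCommGroup V] [Module k V] (J : Type)
    (B : J → Type) : ((Σ j, B j) → V) ≃ₗ[k] (∀ j, B j → V) where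
  toFun F j b := F ⟨j, b⟩
  invFun Φ x := Φ x.1 x.2
  map_add' _ _ := rfl
  map_smul' _ _ := rfl
  left_inv _ := rfl
  right_inv _ := rfl

/-- C3. -/
theorem stmt_opSigma : Stmt_opSigma := by
  intro k _ V _ _ _ u J _ B _ τ
  rw [← OpSigma_pi k J (fun j => B j → V) (fun j => opU (τ j) u),
    ← LinearEquiv.charpoly_conj (OpSigma_e k V J B)]
  congr 1

end Fermat.Agent.TW56.Ind

end

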