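/-
TEAM TW56 -> S56, block [IND], task IND-C1 (helper5): two permutations of finite sets all of whose
powers have the same number of fixed points are conjugate.
-/
import Fermat.Agent.TW56.Ind.Interface

set_option autoImplicit false

noncomputable section

namespace Fermat.Agent.TW56.Ind

open _root_.Fermat.Agent.CFT.Pos Module CategoryTheory Polynomial

/-- the support of `σ ^ n` in terms of the cycle type. -/
theorem PermIso_support {A : Type} [Fintype A] [DecidableEq A] (σ : Equiv.Perm A) (n : ℕ) :
    (σ ^ n).support.card = ((σ.cycleType).filter (fun m => ¬ m ∣ n)).sum := by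
  induction σ using Equiv.Perm.cycle_induction_on with
  | base_one => simp
  | base_cycles σ hσ =>
    rw [hσ.cycleType, ← hσ.orderOf]
    by_cases h : orderOf σ ∣ n
    · rw [orderOf_dvd_iff_pow_eq_one.1 h, Multiset.filter_singleton, if_neg (not_not.2 h)]
      simp
    · rw [hσ.support_pow_eq_iff.2 h, Multiset.filter_singleton, if_pos h, hσ.orderOf]
      simp
  | induction_disjoint σ τ hd _ hσ hτ =>
    rw [hd.cycleType_mul, Multiset.filter_add, Multiset.sum_add, ← hσ, ← hτ, hd.commute.mul_pow,
      (hd.pow_disjoint_pow n n).card_support_mul]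

/-- a multiset of positive integers is determined by the sums of its divisors of `n`. -/
theorem PermIso_multiset (s t : Multiset ℕ) (hs : ∀ m ∈ s, 0 < m) (ht : ∀ m ∈ t, 0 < m)
    (h : ∀ n, (s.filter (fun m => m ∣ n)).sum = (t.filter (fun m => m ∣ n)).sum) : s = t := by
  rw [Multiset.ext]
  intro a
  induction a using Nat.strong_induction_on with
  | _ a ih =>
    rcases Nat.eq_zero_or_pos a with rfl | ha
    · rw [Multiset.count_eq_zero_of_notMem (fun h0 => lt_irrefl _ (hs 0 h0)),
        Multiset.count_eq_zero_of_notMem (fun h0 => lt_irrefl _ (ht 0 h0))]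
    · have key : ∀ u : Multiset ℕ, (u.filter (fun m => m ∣ a)).sum
          = (u.filter (fun m => m ∣ a ∧ m < a)).sum + u.count a * a := by
        intro u
        have h1 : u.filter (fun m => m ∣ a)
            = u.filter (fun m => m ∣ a ∧ m < a) + u.filter (fun m => a = m) := by
          rw [← Multiset.filter_add_not (fun m => m < a) (u.filter (fun m => m ∣ a)),
            Multiset.filter_filter, Multiset.filter_filter]
          congr 1
          · refine Multiset.filter_congr fun m _ => ?_
            tauto
          · refine Multiset.filter_congr fun m _ => ?_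
            constructor
            · rintro ⟨h2, h3⟩
              exact le_antisymm (not_lt.1 h2) (Nat.le_of_dvd ha h3)
            · rintro rfl
              exact ⟨lt_irrefl _, dvd_rfl⟩
        rw [h1, Multiset.sum_add, Multiset.filter_eq, Multiset.sum_replicate, smul_eq_mul]
      have h2 : s.filter (fun m => m ∣ a ∧ m < a) = t.filter (fun m => m ∣ a ∧ m < a) := by
        rw [Multiset.ext]
        intro m
        rw [Multiset.count_filter, Multiset.count_filter]
        split_ifs with hm
        · exact ih m hm.2
        · rfl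
      have h3 := h a
      rw [key s, key t, h2] at h3
      exact Nat.eq_of_mul_eq_mul_right ha (Nat.add_left_cancel h3)

theorem PermIso_nfix {A : Type} [Fintype A] [DecidableEq A] (σ : Equiv.Perm A) :
    nfix σ + σ.support.card = Fintype.card A := by
  have h1 : nfix σ = Fintype.card (Function.fixedPoints σ) := by
    rw [nfix, Nat.card_eq_fintype_card]
    rfl
  rw [h1, σ.card_fixedPoints, σ.sum_cycleType]
  exact Nat.sub_add_cancel (Finset.card_le_univ _)

theorem PermIso_conj {A : Type} [Finite A] (σ τ : Equiv.Perm A)
    (h : ∀ n : ℕ, nfix (σ ^ n) = nfix (τ ^ n)) : IsConj σ τ := by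
  classical
  have : Fintype A := Fintype.ofFinite A
  rw [Equiv.Perm.isConj_iff_cycleType_eq]
  have h1 : ∀ n, ((σ.cycleType).filter (fun m => ¬ m ∣ n)).sum
      = ((τ.cycleType).filter (fun m => ¬ m ∣ n)).sum := by
    intro n
    rw [← PermIso_support, ← PermIso_support]
    have h2 := PermIso_nfix (σ ^ n)
    have h3 := PermIso_nfix (τ ^ n)
    rw [h n] at h2
    omega
  have hsum : σ.cycleType.sum = τ.cycleType.sum := by
    have h2 := h1 1
    have h3 : ∀ ρ : Equiv.Perm A, (ρ.cycleType).filter (fun m => ¬ m ∣ 1) = ρ.cycleType := by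
      intro ρ
      rw [Multiset.filter_eq_self]
      intro m hm hm1
      have := Equiv.Perm.two_le_of_mem_cycleType hm
      have := Nat.dvd_one.1 hm1
      omega
    rwa [h3, h3] at h2
  refine PermIso_multiset _ _ (fun m hm => ?_) (fun m hm => ?_) ?_
  · have := Equiv.Perm.two_le_of_mem_cycleType hm
    omega
  · have := Equiv.Perm.two_le_of_mem_cycleType hm
    omega
  · intro n
    have h4 : ∀ u : Multiset ℕ, (u.filter (fun m => m ∣ n)).sum
        + (u.filter (fun m => ¬ m ∣ n)).sum = u.sum := by
      intro u
      rw [← Multiset.sum_add, Multiset.filter_add_not]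
    have h5 := h4 σ.cycleType
    have h6 := h4 τ.cycleType
    have h7 := h1 n
    omega

theorem PermIso_nfix_congr {A B : Type} (e : A ≃ B) (ρ : Equiv.Perm A) :
    nfix (e.permCongr ρ) = nfix ρ := by
  refine Nat.card_congr (Equiv.subtypeEquiv e.symm fun b => ?_)
  rw [Equiv.permCongr_apply]
  constructor
  · intro h
    exact e.injective (by rw [h, Equiv.apply_symm_apply])
  · intro h
    rw [h, Equiv.apply_symm_apply]

theorem PermIso_pow {A B : Type} (e : A ≃ B) (ρ : Equiv.Perm A) (n : ℕ) :
    (e.permCongr ρ) ^ n = e.permCongr (ρ ^ n) := by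
  induction n with
  | zero => ext b; simp
  | succ n ih => rw [pow_succ, pow_succ, ih, Equiv.permCongr_mul]

/-- **IND-C1** -/
theorem stmt_permIso : Stmt_permIso := by
  intro A B _ _ σ τ h
  have hcard : Nat.card A = Nat.card B := by
    have h0 := h 0
    rw [pow_zero, pow_zero] at h0
    have hA : nfix (1 : Equiv.Perm A) = Nat.card A :=
      Nat.card_congr (Equiv.subtypeUnivEquiv fun _ => rfl)
    have hB : nfix (1 : Equiv.Perm B) = Nat.card B :=
      Nat.card_congr (Equiv.subtypeUnivEquiv fun _ => rfl)
    rw [← hA, ← hB, h0]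
  let e₀ : A ≃ B := (Finite.equivFinOfCardEq hcard).trans (Finite.equivFinOfCardEq rfl).symm
  have hconj : IsConj σ (e₀.symm.permCongr τ) := by
    refine PermIso_conj _ _ fun n => ?_
    rw [PermIso_pow, PermIso_nfix_congr, h n]
  obtain ⟨c, hc⟩ := isConj_iff.1 hconj
  refine ⟨c.trans e₀, fun a => ?_⟩
  have h1 : c * σ = e₀.symm.permCongr τ * c := by
    rw [← hc]
    group
  have h2 : c (σ a) = e₀.symm (τ (e₀ (c a))) := congrArg (fun f : Equiv.Perm A => f a) h1
  show e₀ (c (σ a)) = τ (e₀ (c a))
  rw [h2, Equiv.apply_symm_apply]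

end Fermat.Agent.TW56.Ind

end
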