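/-
TEAM TW56 -> S56, block [IND], package IND-A2 (helper71).

`stmt_simpleSub : Stmt_simpleSub` : a non zero good module has a simple submodule.
-/
import Fermat.Agent.TW56.Ind.Interface

set_option autoImplicit false

noncomputable section

namespace Fermat.Agent.TW56.Ind

open _root_.Fermat.Agent.CFT.Pos Module CategoryTheory Polynomial

/-- a stable non zero subspace of minimal dimension. -/
theorem SimpleSub_min {k : Type} [Field k] {G : Type} [Group G] (M : Rep.{0} k G)
    [Nontrivial M] : ∃ B : Submodule k M, Stable M B ∧ B ≠ ⊥ ∧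
      ∀ B' : Submodule k M, Stable M B' → B' ≠ ⊥ → finrank k B ≤ finrank k B' := by
  classical
  have hex : ∃ n : ℕ, ∃ B : Submodule k M, Stable M B ∧ B ≠ ⊥ ∧ finrank k B = n :=
    ⟨_, ⊤, fun g x _ => Submodule.mem_top, top_ne_bot, rfl⟩
  obtain ⟨B, hB, hB0, hBn⟩ := Nat.find_spec hex
  refine ⟨B, hB, hB0, fun B' hB' hB'0 => ?_⟩
  rw [hBn]
  exact Nat.find_min' hex ⟨B', hB', hB'0, rfl⟩

/-- **IND-A2** -/
theorem stmt_simpleSub : Stmt_simpleSub := by
  intro k _ G _ W M hM hnt
  have hfin : Module.Finite k M := hM.1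
  obtain ⟨B, hB, hB0, hmin⟩ := SimpleSub_min M
  refine ⟨Rep.subrepresentation M B hB, Rep.quotient M B hB, Rep.subtype M B hB, Rep.mkQ M B hB,
    ?_, ?_, ?_, ?_, ?_⟩
  · refine ⟨fun x y h => Subtype.ext h, Submodule.mkQ_surjective B, fun x => ?_⟩
    constructor
    · intro h
      exact ⟨⟨x, (Submodule.Quotient.mk_eq_zero B).1 h⟩, rfl⟩
    · rintro ⟨a, rfl⟩
      exact (Submodule.Quotient.mk_eq_zero B).2 a.2
  · refine ⟨(Submodule.nontrivial_iff_ne_bot).2 hB0, fun B' hB' => ?_⟩
    by_cases h0 : B' = ⊥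
    · exact Or.inl h0
    · right
      have hB'' : ∀ g : G, ∀ b : B, b ∈ B' → (⟨M.ρ g b.1, hB g b.2⟩ : B) ∈ B' :=
        fun g b hb => hB' g hb
      change Submodule k B at B'
      have hst : Stable M (B'.map B.subtype) := by
        rintro g _ ⟨b, hb, rfl⟩
        exact ⟨⟨M.ρ g b.1, hB g b.2⟩, hB'' g b hb, rfl⟩
      have hne : B'.map B.subtype ≠ ⊥ := by
        intro h
        apply h0
        rw [eq_bot_iff] at h ⊢
        intro b hb
        have : (b : M) ∈ (⊥ : Submodule k M) := h ⟨b, hb, rfl⟩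
        exact (Submodule.mem_bot k).2 (Subtype.ext ((Submodule.mem_bot k).1 this))
      have h1 := hmin _ hst hne
      have h2 : finrank k (B'.map B.subtype) = finrank k B' :=
        (Submodule.equivMapOfInjective B.subtype B.injective_subtype B').finrank_eq.symm
      exact Submodule.eq_top_of_finrank_eq (le_antisymm (Submodule.finrank_le B') (h2 ▸ h1))
  · exact ⟨inferInstanceAs (Module.Finite k B), fun w hw x => Subtype.ext (hM.2 w hw x.1)⟩
  · refine ⟨inferInstanceAs (Module.Finite k (M ⧸ B)), fun w hw x => ?_⟩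
    obtain ⟨y, rfl⟩ := Submodule.mkQ_surjective B x
    exact congrArg B.mkQ (hM.2 w hw y)
  · have h1 := Submodule.finrank_quotient_add_finrank B
    have h2 : 0 < finrank k B := by
      have := (Submodule.nontrivial_iff_ne_bot).2 hB0
      exact finrank_pos
    have h3 : finrank k (Rep.quotient M B hB) = finrank k (M ⧸ B) := rfl
    omega

end Fermat.Agent.TW56.Ind

end
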