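/-
TEAM TW56 -> S56, block [IND].  B3 : a simple module over `𝔽_p[G]` has an endomorphism of non zero
trace in the bicommutant.
-/
import Fermat.Agent.TW56.Ind.Interface

set_option autoImplicit false

noncomputable section

namespace Fermat.Agent.TW56.Ind

open _root_.Fermat.Agent.CFT.Pos Module CategoryTheory Polynomial

/-- a non zero vector space over a finite separable extension `E / F` has an `E`-linear endomorphism
with non zero `F`-trace. -/
theorem TraceElt_abs (F E T : Type) [Field F] [Field E] [Algebra F E] [FiniteDimensional F E]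
    [Algebra.IsSeparable F E] [AddCommGroup T] [Module F T] [Module E T] [IsScalarTower F E T]
    [Module.Finite F T] [Nontrivial T] :
    ∃ φ : T →ₗ[E] T, LinearMap.trace F T (φ.restrictScalars F) ≠ 0 := by
  obtain ⟨t₀, ht₀⟩ := exists_ne (0 : T)
  obtain ⟨β, hβ⟩ := (LinearMap.toSpanSingleton E T t₀).exists_leftInverse_of_injective
    (LinearMap.ker_toSpanSingleton E ht₀)
  obtain ⟨d, hd⟩ : ∃ d : E, Algebra.trace F E d ≠ 0 := by
    by_contra hcon
    push Not at hcon
    exact Algebra.trace_ne_zero F E (LinearMap.ext hcon)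
  refine ⟨LinearMap.toSpanSingleton E T t₀ ∘ₗ (d • β), ?_⟩
  have e1 : ((LinearMap.toSpanSingleton E T t₀ ∘ₗ (d • β)).restrictScalars F)
      = ((LinearMap.toSpanSingleton E T t₀).restrictScalars F) ∘ₗ ((d • β).restrictScalars F) := rfl
  have e2 : ((d • β).restrictScalars F) ∘ₗ ((LinearMap.toSpanSingleton E T t₀).restrictScalars F)
      = Algebra.lmul F E d := by
    ext x
    have h1 : β (LinearMap.toSpanSingleton E T t₀ x) = x := LinearMap.congr_fun hβ x
    show d • β (LinearMap.toSpanSingleton E T t₀ x) = d * x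
    rw [h1, smul_eq_mul]
  rw [e1, LinearMap.trace_comp_comm', e2, ← Algebra.trace_apply]
  exact hd

section Schur

variable {k : Type} [Field k] {G : Type} [Group G]

/-- the commutant. -/
def TraceElt_D (T : Rep.{0} k G) : Subalgebra k (Module.End k T) :=
  Subalgebra.centralizer k (Set.range T.ρ)

theorem TraceElt_mem_D (T : Rep.{0} k G) (d : Module.End k T) :
    d ∈ TraceElt_D T ↔ ∀ g, d ∘ₗ T.ρ g = T.ρ g ∘ₗ d := by
  unfold TraceElt_D
  rw [Subalgebra.mem_centralizer_iff]
  constructor
  · intro h g
    exact (h _ ⟨g, rfl⟩).symm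
  · rintro h _ ⟨g, rfl⟩
    exact (h g).symm

/-- Schur's lemma. -/
theorem TraceElt_injective {T : Rep.{0} k G} (hT : IsSimp T) {d : Module.End k T}
    (hd : d ∈ TraceElt_D T) (hd0 : d ≠ 0) : Function.Injective d := by
  rw [TraceElt_mem_D] at hd
  have hst : Stable T (LinearMap.ker d) := by
    intro g x hx
    rw [Submodule.mem_comap, LinearMap.mem_ker]
    have h1 := LinearMap.congr_fun (hd g) x
    rw [LinearMap.comp_apply, LinearMap.comp_apply, LinearMap.mem_ker.1 hx, map_zero] at h1
    exact h1
  rcases hT.2 _ hst with h | h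
  · exact LinearMap.ker_eq_bot.1 h
  · exact absurd (LinearMap.ker_eq_top.1 h) hd0

theorem TraceElt_isDomain {T : Rep.{0} k G} (hT : IsSimp T) : IsDomain (TraceElt_D T) := by
  have := hT.1
  have h1 : NoZeroDivisors (TraceElt_D T) := by
    refine ⟨fun {a b} hab => ?_⟩
    by_cases ha : a = 0
    · exact Or.inl ha
    right
    have ha' : (a : Module.End k T) ≠ 0 := fun h => ha (Subtype.ext h)
    have hinj := TraceElt_injective hT a.2 ha'
    apply Subtype.ext
    apply LinearMap.ext
    intro x
    apply hinj
    have h2 := LinearMap.congr_fun (congrArg Subtype.val hab) x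
    show (a : Module.End k T) ((b : Module.End k T) x) = (a : Module.End k T) 0
    rw [map_zero]
    exact h2
  exact NoZeroDivisors.to_isDomain _

end Schur

theorem stmt_traceElt : Stmt_traceElt := by
  intro p _ G _ T hfin hT
  have hnt : Nontrivial T := hT.1
  have hTfin : Finite T := Module.finite_of_finite (ZMod p)
  have hEfin : Finite (Module.End (ZMod p) T) :=
    Finite.of_injective (fun f : Module.End (ZMod p) T => (f : T → T)) DFunLike.coe_injective
  have hDfin : Finite (TraceElt_D T) := Subtype.finite
  have hdom : IsDomain (TraceElt_D T) := TraceElt_isDomain hT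
  have hF : IsField (TraceElt_D T) := Finite.isDomain_to_isField _
  let instF : Field (TraceElt_D T) := hF.toField
  let instA : Algebra (ZMod p) (TraceElt_D T) := (TraceElt_D T).algebra
  let instM : Module (TraceElt_D T) T := (TraceElt_D T).moduleLeft
  have instS : IsScalarTower (ZMod p) (TraceElt_D T) T := by
    refine ⟨fun a d t => ?_⟩
    show (a • (d : Module.End (ZMod p) T)) t = a • (d : Module.End (ZMod p) T) t
    rfl
  have instFD : FiniteDimensional (ZMod p) (TraceElt_D T) := Module.Finite.of_finite
  obtain ⟨φ, hφ⟩ := TraceElt_abs (ZMod p) (TraceElt_D T) T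
  refine ⟨φ.restrictScalars (ZMod p), fun d hd => ?_, hφ⟩
  have hdD : d ∈ TraceElt_D T := (TraceElt_mem_D T d).2 hd
  ext t
  exact φ.map_smul ⟨d, hdD⟩ t

end Fermat.Agent.TW56.Ind

end
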