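/-
TEAM TW56 -> S56, block [IND] (architect helper87).  Task IND-P4 (helper1):
`f (tw H Y) = 0` when `[H : W]` is prime to `p`.
-/
import Fermat.Agent.TW56.Ind.Interface

set_option autoImplicit false

noncomputable section

namespace Fermat.Agent.TW56.Ind

open _root_.Fermat.Agent.CFT.Pos Module CategoryTheory Polynomial

lemma TwProj_subsingleton {k : Type} [Field k] {G : Type} [Group G] (H : Subgroup G)
    (Y : Rep.{0} k G) : Subsingleton (twB H Y ⊥) := by
  have key : ∀ F : twSub H Y ⊥, F = 0 := by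
    intro F
    apply Subtype.ext
    funext c
    induction c using QuotientGroup.induction_on with
    | H g =>
      have h0 : Y.ρ g⁻¹ (F.1 (g : G ⧸ H)) = 0 := (Submodule.mem_bot k).1 (F.2 g)
      have h1 : Y.ρ g (Y.ρ g⁻¹ (F.1 (g : G ⧸ H))) = F.1 (g : G ⧸ H) := by
        rw [← Module.End.mul_apply, ← map_mul, mul_inv_cancel, map_one, Module.End.one_apply]
      rw [h0, map_zero] at h1
      exact h1.symm
  exact ⟨fun F F' => (key F).trans (key F').symm⟩

lemma TwProj_span_stable {k : Type} [Field k] {G : Type} [Group G] (H : Subgroup G)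
    (Y : Rep.{0} k G) (b : Y) :
    HStable H Y (Submodule.span k {y | ∃ h ∈ H, Y.ρ h b = y}) := by
  intro h hh y hy
  induction hy using Submodule.span_induction with
  | mem x hx =>
    obtain ⟨h', hh', rfl⟩ := hx
    refine Submodule.subset_span ⟨h * h', H.mul_mem hh hh', ?_⟩
    rw [map_mul, Module.End.mul_apply]
  | zero => rw [map_zero]; exact Submodule.zero_mem _
  | add x y _ _ hx hy => rw [map_add]; exact Submodule.add_mem _ hx hy
  | smul a x _ hx => rw [map_smul]; exact Submodule.smul_mem _ a hx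

theorem stmt_twProj (h1 : Stmt_addBasic) (h2 : Stmt_maschke) (h3 : Stmt_twSplit)
    (h4 : Stmt_cycRetract) : Stmt_twProj := by
  intro p _ G _ W _ _ f hadd hkill H hWH hpH Y hY
  have : H.FiniteIndex := Subgroup.finiteIndex_of_le hWH
  have := hY.1
  obtain ⟨hzero, hiso⟩ := h1 (ZMod p) G W f hadd
  have key : ∀ (n : ℕ) (B : Submodule (ZMod p) Y), finrank (ZMod p) B = n → HStable H Y B →
      f (twB H Y B) = 0 := by
    intro n
    induction n using Nat.strong_induction_on with
    | _ n ih =>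
      intro B hn hB
      by_cases hbot : B = ⊥
      · subst hbot
        exact hzero _ (TwProj_subsingleton H Y)
      · obtain ⟨b, hbB, hb0⟩ := Submodule.exists_mem_ne_zero_of_ne_bot hbot
        have hB₁B : Submodule.span (ZMod p) {y | ∃ h ∈ H, Y.ρ h b = y} ≤ B :=
          Submodule.span_le.2 (by rintro _ ⟨h, hh, rfl⟩; exact hB h hh b hbB)
        have hB₁s := TwProj_span_stable H Y b
        obtain ⟨B₂, hB₂B, hB₂s, hinf, hsup⟩ := h2 p G W H hWH hpH Y hY.2 _ B hB₁B hB₁s hB
        obtain ⟨q, hq⟩ := h3 (ZMod p) G H Y _ B₂ B hB₁B hB₁s hB₂s hinf hsup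
        obtain ⟨i, r, hir⟩ := h4 p G W H hWH hpH Y hY.2 b
        have e1 : f (twB H Y (Submodule.span (ZMod p) {y | ∃ h ∈ H, Y.ρ h b = y})) = 0 :=
          hkill _ i r hir
        have hbmem : b ∈ Submodule.span (ZMod p) {y | ∃ h ∈ H, Y.ρ h b = y} :=
          Submodule.subset_span ⟨1, H.one_mem, by rw [map_one, Module.End.one_apply]⟩
        have hpos : 0 < finrank (ZMod p)
            (Submodule.span (ZMod p) {y | ∃ h ∈ H, Y.ρ h b = y}) := by
          rw [Module.finrank_pos_iff_exists_ne_zero]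
          exact ⟨⟨b, hbmem⟩, fun h => hb0 (congrArg Subtype.val h)⟩
        have hdim := Submodule.finrank_sup_add_finrank_inf_eq
          (Submodule.span (ZMod p) {y | ∃ h ∈ H, Y.ρ h b = y}) B₂
        rw [hsup, hinf, finrank_bot, hn] at hdim
        have hlt : finrank (ZMod p) B₂ < n := by omega
        have e2 := ih _ hlt B₂ rfl hB₂s
        rw [hadd _ _ _ _ q (goodW_twB hWH hY _) (goodW_twB hWH hY B) (goodW_twB hWH hY B₂) hq,
          e1, e2]
        rfl
  have e := hiso _ _ (twVal H Y ⊤) (twVal_top_bijective H Y) (goodW_twB hWH hY ⊤)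
    (goodW_tw hWH hY)
  rw [← e]
  exact key _ ⊤ rfl (fun _ _ _ _ => Submodule.mem_top)

end Fermat.Agent.TW56.Ind

end
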