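/-
TEAM TW56 -> S56, block [IND], task IND-P2 (helper40; architect helper87).
`stmt_twSplit : Stmt_twSplit` : `Ind (B₁ ⊕ B₂) = Ind B₁ ⊕ Ind B₂`, as a short exact sequence of `twB`.
-/
import Fermat.Agent.TW56.Ind.Interface

set_option autoImplicit false

noncomputable section

namespace Fermat.Agent.TW56.Ind

open _root_.Fermat.Agent.CFT.Pos Module CategoryTheory Polynomial

variable {k : Type} [Field k] {G : Type} [Group G]

/-- a linear projection onto `B₂` killing `B₁`. -/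
theorem TwSplit_exists_proj {V : Type} [AddCommGroup V] [Module k V] (B₁ B₂ : Submodule k V)
    (h : B₁ ⊓ B₂ = ⊥) :
    ∃ π : V →ₗ[k] V, (∀ b ∈ B₁, π b = 0) ∧ (∀ b ∈ B₂, π b = b) ∧ ∀ v, π v ∈ B₂ := by
  have hker : LinearMap.ker (B₁.mkQ ∘ₗ B₂.subtype) = ⊥ := by
    rw [LinearMap.ker_eq_bot']
    intro b hb
    have h1 : (b : V) ∈ B₁ := (Submodule.Quotient.mk_eq_zero B₁).mp hb
    have h2 : (b : V) ∈ B₁ ⊓ B₂ := ⟨h1, b.2⟩
    rw [h] at h2
    exact Subtype.ext ((Submodule.mem_bot k).mp h2)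
  obtain ⟨g, hg⟩ := LinearMap.exists_leftInverse_of_injective _ hker
  refine ⟨B₂.subtype ∘ₗ g ∘ₗ B₁.mkQ, fun b hb => ?_, fun b hb => ?_, fun v => (g _).2⟩
  · show ((g (B₁.mkQ b) : B₂) : V) = 0
    have h0 : B₁.mkQ b = 0 := (Submodule.Quotient.mk_eq_zero B₁).mpr hb
    rw [h0, map_zero]
    rfl
  · have h3 := LinearMap.congr_fun hg ⟨b, hb⟩
    exact congrArg Subtype.val h3

/-- the linear map `F ↦ (gH ↦ g π (g⁻¹ F (gH)))`, defined with representatives. -/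
def TwSplit_lin (H : Subgroup G) (Y : Rep.{0} k G) (π : Y →ₗ[k] Y) :
    (G ⧸ H → Y) →ₗ[k] (G ⧸ H → Y) where
  toFun F c := Y.ρ c.out (π (Y.ρ (c.out)⁻¹ (F c)))
  map_add' F F' := funext fun c => by simp
  map_smul' a F := funext fun c => by simp

lemma TwSplit_lin_mk {H : Subgroup G} {Y : Rep.{0} k G} {π : Y →ₗ[k] Y} {B : Submodule k Y}
    (hπ : ∀ h ∈ H, ∀ b ∈ B, π (Y.ρ h b) = Y.ρ h (π b)) {F : G ⧸ H → Y} (hF : F ∈ twSub H Y B)
    (g : G) :
    TwSplit_lin H Y π F (g : G ⧸ H) = Y.ρ g (π (Y.ρ g⁻¹ (F (g : G ⧸ H)))) := by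
  obtain ⟨h, hh⟩ := QuotientGroup.mk_out_eq_mul H g
  change Y.ρ (g : G ⧸ H).out (π (Y.ρ ((g : G ⧸ H).out)⁻¹ (F (g : G ⧸ H)))) = _
  rw [hh, mul_inv_rev, map_mul, map_mul, Module.End.mul_apply, Module.End.mul_apply,
    hπ _ (H.inv_mem h.2) _ (hF g), ← Module.End.mul_apply (Y.ρ (h : G)), ← map_mul,
    mul_inv_cancel, map_one, Module.End.one_apply]

lemma TwSplit_rho_inv_rho (Y : Rep.{0} k G) (g : G) (y : Y) : Y.ρ g⁻¹ (Y.ρ g y) = y := by
  rw [← Module.End.mul_apply, ← map_mul, inv_mul_cancel, map_one, Module.End.one_apply]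

lemma TwSplit_rho_rho_inv (Y : Rep.{0} k G) (g : G) (y : Y) : Y.ρ g (Y.ρ g⁻¹ y) = y := by
  rw [← Module.End.mul_apply, ← map_mul, mul_inv_cancel, map_one, Module.End.one_apply]

/-- P2. -/
theorem stmt_twSplit : Stmt_twSplit := by
  intro k _ G _ H Y B₁ B₂ B h₁ hs₁ hs₂ hinf hsup
  obtain ⟨π, hπ1, hπ2, hπm⟩ := TwSplit_exists_proj B₁ B₂ hinf
  have h₂ : B₂ ≤ B := hsup ▸ le_sup_right
  have hπ : ∀ h ∈ H, ∀ b ∈ B, π (Y.ρ h b) = Y.ρ h (π b) := by
    intro h hh b hb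
    rw [← hsup] at hb
    obtain ⟨b₁, hb₁, b₂, hb₂, rfl⟩ := Submodule.mem_sup.mp hb
    rw [map_add, map_add, map_add, hπ1 _ (hs₁ h hh b₁ hb₁), hπ2 _ (hs₂ h hh b₂ hb₂), hπ1 _ hb₁,
      hπ2 _ hb₂, map_add, map_zero]
  have hπ0 : ∀ b ∈ B, π b = 0 → b ∈ B₁ := by
    intro b hb h0
    rw [← hsup] at hb
    obtain ⟨b₁, hb₁, b₂, hb₂, rfl⟩ := Submodule.mem_sup.mp hb
    rw [map_add, hπ1 _ hb₁, hπ2 _ hb₂, zero_add] at h0
    rw [h0, add_zero]
    exact hb₁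
  have hmap : ∀ F ∈ twSub H Y B, TwSplit_lin H Y π F ∈ twSub H Y B₂ := by
    intro F hF g
    rw [TwSplit_lin_mk hπ hF, TwSplit_rho_inv_rho]
    exact hπm _
  let q : twB H Y B ⟶ twB H Y B₂ :=
    Rep.ofHom ⟨(TwSplit_lin H Y π).restrict hmap, fun g => LinearMap.ext fun F =>
      Subtype.ext (funext fun c => by
        induction c using QuotientGroup.induction_on with
        | H g' =>
          change TwSplit_lin H Y π ((tw H Y).ρ g F.1) (g' : G ⧸ H)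
            = Y.ρ g (TwSplit_lin H Y π F.1 (g⁻¹ • (g' : G ⧸ H)))
          have h2 : g⁻¹ • (g' : G ⧸ H) = ((g⁻¹ * g' : G) : G ⧸ H) := rfl
          have e1 : ∀ z : Y, Y.ρ g'⁻¹ (Y.ρ g z) = Y.ρ (g⁻¹ * g')⁻¹ z := fun z => by
            rw [← Module.End.mul_apply, ← map_mul]
            congr 2
            group
          have e2 : ∀ w : Y, Y.ρ g (Y.ρ (g⁻¹ * g') w) = Y.ρ g' w := fun w => by
            rw [← Module.End.mul_apply, ← map_mul]
            congr 2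
            group
          rw [h2, TwSplit_lin_mk hπ (twSub_stable H Y B g F.2), TwSplit_lin_mk hπ F.2, tw_ρ_apply,
            h2, e1, e2])⟩
  have hq : ∀ (F : twSub H Y B) (g : G), ((q.hom F : twSub H Y B₂) : G ⧸ H → Y) (g : G ⧸ H)
      = Y.ρ g (π (Y.ρ g⁻¹ (F.1 (g : G ⧸ H)))) := fun F g => TwSplit_lin_mk hπ F.2 g
  refine ⟨q, ?_, ?_, ?_⟩
  · intro F F' h
    exact Subtype.ext (congrArg (fun z : twSub H Y B => z.1) h)
  · intro F
    refine ⟨⟨F.1, twSub_mono H Y h₂ F.2⟩, Subtype.ext (funext fun c => ?_)⟩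
    induction c using QuotientGroup.induction_on with
    | H g =>
      rw [hq, hπ2 _ (F.2 g), TwSplit_rho_rho_inv]
  · intro F
    constructor
    · intro hF
      refine ⟨⟨F.1, fun g => hπ0 _ (F.2 g) ?_⟩, rfl⟩
      have h3 := hq F g
      rw [hF] at h3
      have h4 : Y.ρ g⁻¹ (Y.ρ g (π (Y.ρ g⁻¹ (F.1 (g : G ⧸ H))))) = 0 := by
        rw [← h3]
        exact map_zero _
      rwa [TwSplit_rho_inv_rho] at h4
    · rintro ⟨F', rfl⟩
      refine Subtype.ext (funext fun c => ?_)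
      induction c using QuotientGroup.induction_on with
      | H g =>
        rw [hq, twIncl_coe, hπ1 _ (F'.2 g), map_zero]
        rfl

end Fermat.Agent.TW56.Ind

end
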