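/-
TEAM TW56 -> S56, block [IND] (helper87): **the induction theorem, Cartan form, unconditional.**
-/
import Fermat.Agent.TW56.Ind.Final
import Fermat.Agent.TW56.Ind.Bridge
import Fermat.Agent.TW56.Ind.AddBasic
import Fermat.Agent.TW56.Ind.SimpleSub
import Fermat.Agent.TW56.Ind.CpSES
import Fermat.Agent.TW56.Ind.CpPow
import Fermat.Agent.TW56.Ind.Fam
import Fermat.Agent.TW56.Ind.Mult
import Fermat.Agent.TW56.Ind.TraceElt
import Fermat.Agent.TW56.Ind.Dens
import Fermat.Agent.TW56.Ind.LI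
import Fermat.Agent.TW56.Ind.Num
import Fermat.Agent.TW56.Ind.BN
import Fermat.Agent.TW56.Ind.PermIso
import Fermat.Agent.TW56.Ind.OpConj
import Fermat.Agent.TW56.Ind.OpSigma
import Fermat.Agent.TW56.Ind.CpIt
import Fermat.Agent.TW56.Ind.Nfix
import Fermat.Agent.TW56.Ind.Comb
import Fermat.Agent.TW56.Ind.Maschke
import Fermat.Agent.TW56.Ind.TwSplit
import Fermat.Agent.TW56.Ind.CycRetract
import Fermat.Agent.TW56.Ind.TwProj
import Fermat.Agent.TW56.Ind.MapSigma
import Fermat.Agent.TW56.Ind.Hc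

set_option autoImplicit false

namespace Fermat.Agent.TW56.Ind

/-- Brauer-Nesbitt, unconditional. -/
theorem all_BN : Stmt_BN :=
  stmt_BN stmt_fam (stmt_mult stmt_addBasic stmt_simpleSub stmt_cpSES stmt_cpIso)
    (stmt_num (stmt_LI stmt_traceElt stmt_dens)) stmt_cpPow stmt_preg

/-- **IND, Cartan form**, unconditional. -/
theorem all_IND : Stmt_IND :=
  ind_of_packages all_BN (stmt_cpIt stmt_opConj stmt_opProd)
    (stmt_comb stmt_permIso stmt_opConj stmt_opSigma stmt_nfix)
    (stmt_twProj stmt_addBasic stmt_maschke stmt_twSplit stmt_cycRetract)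
    (stmt_mapSigma stmt_addBasic) stmt_Hc

/-- the form used by LEC and EC. -/
theorem all_INDproj : _root_.Fermat.Agent.TW56.Loc.Stmt_INDproj := indproj_of_IND all_IND

end Fermat.Agent.TW56.Ind
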