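/-
TEAM TW56 -> S56, block [IND] (architect helper87).  File 1: definitions.

GOAL (`Loc.Stmt_INDproj`, "Cartan form" of the induction theorem): an additive function on the
`𝔽_p[G/W]`-modules which vanishes on the retracts of `perm W` is zero.

ROUTE.  (BN) Brauer-Nesbitt: the class of a module in the Grothendieck group is determined by the
characteristic polynomials of the `p`-regular elements.  (COMB) `A := ⨆_c G/H_c`, `c` running through
the `p`-regular elements of `G/W`, `H_c` the preimage of `⟨c⟩`; `T X := Map(A, X)`.  Every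
`p`-regular `g` has between `1` and `N = #A` fixed points on `A`, so `∏_{v=1}^N (T - v)` kills
every `X` in the Grothendieck group.  (PROJ) `f (T Y) = 0` for all `Y`.  Hence `± N! f(X) = 0`.
-/
import Fermat.Agent.CFT.Pos.Dev

set_option autoImplicit false

noncomputable section

namespace Fermat.Agent.TW56.Ind

open _root_.Fermat.Agent.CFT.Pos Module CategoryTheory Polynomial

variable {k : Type} [Field k] {G : Type} [Group G]

/-- `f` is additive on short exact sequences of good modules. -/
def IsAdd (W : Subgroup G) (f : Rep.{0} k G → ℤ) : Prop :=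
  ∀ (X₁ X₂ X₃ : Rep.{0} k G) (i : X₁ ⟶ X₂) (q : X₂ ⟶ X₃), GoodW W X₁ → GoodW W X₂ →
    GoodW W X₃ → IsSES i q → f X₂ = f X₁ + f X₃

/-- `f` vanishes on the retracts of `perm W`. -/
def KillsProj (W : Subgroup G) (f : Rep.{0} k G → ℤ) : Prop :=
  ∀ (P : Rep.{0} k G) (i : P ⟶ perm W) (r : perm W ⟶ P), (∀ x, r.hom (i.hom x) = x) → f P = 0

/-- `B` is stable under `G`. -/
def Stable (X : Rep.{0} k G) (B : Submodule k X) : Prop := ∀ g, B ≤ B.comap (X.ρ g)

/-- `B` is stable under the subgroup `H`. -/
def HStable (H : Subgroup G) (X : Rep.{0} k G) (B : Submodule k X) : Prop :=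
  ∀ h ∈ H, ∀ b ∈ B, X.ρ h b ∈ B

/-- simple modules. -/
def IsSimp (X : Rep.{0} k G) : Prop :=
  Nontrivial X ∧ ∀ B : Submodule k X, Stable X B → B = ⊥ ∨ B = ⊤

open Classical in
/-- the characteristic polynomial of `g` on `X` (junk `1` if `X` is not finite dimensional). -/
def cp (X : Rep.{0} k G) (g : G) : k[X] :=
  if h : Module.Finite k X then (X.ρ g).charpoly else 1

lemma cp_eq (X : Rep.{0} k G) [h : Module.Finite k X] (g : G) : cp X g = (X.ρ g).charpoly :=
  dif_pos h

/-- a finite family of pairwise non isomorphic simple good modules. -/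
structure SimpFam (W : Subgroup G) {ι : Type} (T : ι → Rep.{0} k G) : Prop where
  good : ∀ i, GoodW W (T i)
  simp : ∀ i, IsSimp (T i)
  noniso : ∀ (i j : ι) (e : T i ⟶ T j), Function.Bijective e.hom → i = j

/-- the family contains every simple good module. -/
def Complete (W : Subgroup G) {ι : Type} (T : ι → Rep.{0} k G) : Prop :=
  ∀ S : Rep.{0} k G, GoodW W S → IsSimp S → ∃ (i : ι) (e : S ⟶ T i), Function.Bijective e.hom

/-- `g` is `p`-regular modulo `W`. -/
def PReg (p : ℕ) (W : Subgroup G) [W.Normal] (g : G) : Prop := ¬ p ∣ orderOf (g : G ⧸ W)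

/-! ### `Map(A, X)` for a `G`-set `A` -/

/-- the diagonal action on functions `A → X`. -/
def mapRho (A : Type) [MulAction G A] (X : Rep.{0} k G) : Representation k G (A → X) where
  toFun g :=
    { toFun := fun F a => X.ρ g (F (g⁻¹ • a))
      map_add' := fun F F' => funext fun c => by simp
      map_smul' := fun a F => funext fun c => by simp }
  map_one' := LinearMap.ext fun F => funext fun c => by simp
  map_mul' g g' := LinearMap.ext fun F => funext fun c => by simp [mul_smul]

/-- `Map(A, X)`. -/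
abbrev mapRep (A : Type) [MulAction G A] (X : Rep.{0} k G) : Rep.{0} k G := Rep.of (mapRho A X)

@[simp] lemma mapRep_ρ_apply (A : Type) [MulAction G A] (X : Rep.{0} k G) (g : G) (F : A → X)
    (a : A) : (mapRep A X).ρ g F a = X.ρ g (F (g⁻¹ • a)) := rfl

lemma mapRep_quot (H : Subgroup G) (X : Rep.{0} k G) : mapRep (G ⧸ H) X = tw H X := rfl

/-- the iterates `T^j X`, `T = Map(A, -)`. -/
def itT (A : Type) [MulAction G A] (X : Rep.{0} k G) : ℕ → Rep.{0} k G
  | 0 => X
  | j + 1 => mapRep A (itT A X j)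

lemma itT_zero (A : Type) [MulAction G A] (X : Rep.{0} k G) : itT A X 0 = X := rfl

lemma itT_succ (A : Type) [MulAction G A] (X : Rep.{0} k G) (j : ℕ) :
    itT A X (j + 1) = mapRep A (itT A X j) := rfl

/-! ### linear algebra: a permutation and an endomorphism -/

/-- `(U F)(b) = u (F (σ⁻¹ b))` on `B → V`. -/
def opU {B V : Type} [AddCommGroup V] [Module k V] (σ : Equiv.Perm B) (u : V →ₗ[k] V) :
    (B → V) →ₗ[k] (B → V) where
  toFun F b := u (F (σ.symm b))
  map_add' F F' := funext fun b => by simp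
  map_smul' a F := funext fun b => by simp

@[simp] lemma opU_apply {B V : Type} [AddCommGroup V] [Module k V] (σ : Equiv.Perm B)
    (u : V →ₗ[k] V) (F : B → V) (b : B) : opU σ u F b = u (F (σ.symm b)) := rfl

lemma mapRep_ρ_eq_opU (A : Type) [MulAction G A] (X : Rep.{0} k G) (g : G) :
    (mapRep A X).ρ g = opU (MulAction.toPerm g) (X.ρ g) := rfl

/-- the permutation `F ↦ σ ∘ F` of `Fin j → A`. -/
def permArrow {A : Type} (σ : Equiv.Perm A) (j : ℕ) : Equiv.Perm (Fin j → A) :=
  (Equiv.refl (Fin j)).arrowCongr σ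

@[simp] lemma permArrow_apply {A : Type} (σ : Equiv.Perm A) (j : ℕ) (F : Fin j → A) (x : Fin j) :
    permArrow σ j F x = σ (F x) := rfl

/-- the number of fixed points. -/
def nfix {B : Type} (σ : Equiv.Perm B) : ℕ := Nat.card {b : B // σ b = b}

/-- the polynomial `∏_{v=1}^N (X - v)`. -/
def polyP (N : ℕ) : ℤ[X] := ∏ v ∈ Finset.Icc 1 N, (X - C (v : ℤ))

/-! ### the `G`-set `A` -/

/-- the preimage in `G` of the cyclic subgroup generated by `c`. -/
def Hc (W : Subgroup G) [W.Normal] (c : G ⧸ W) : Subgroup G :=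
  (Subgroup.zpowers c).comap (QuotientGroup.mk' W)

/-- the `p`-regular elements of `G ⧸ W`. -/
abbrev Kap (p : ℕ) (W : Subgroup G) [W.Normal] : Type := {c : G ⧸ W // ¬ p ∣ orderOf c}

/-- `A = ⨆_c G ⧸ H_c`. -/
abbrev setA (p : ℕ) (W : Subgroup G) [W.Normal] : Type := Σ c : Kap p W, G ⧸ Hc W c.1

end Fermat.Agent.TW56.Ind

end
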