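/-
TEAM TW56 -> S56, block [IND].  P6: the subgroups `H_c`.
-/
import Fermat.Agent.TW56.Ind.Interface

set_option autoImplicit false

noncomputable section

namespace Fermat.Agent.TW56.Ind

open _root_.Fermat.Agent.CFT.Pos Module CategoryTheory Polynomial

theorem Hc_le {G : Type} [Group G] (W : Subgroup G) [W.Normal] (c : G ⧸ W) : W ≤ Hc W c := by
  intro w hw
  show QuotientGroup.mk' W w ∈ Subgroup.zpowers c
  rw [QuotientGroup.mk'_apply, (QuotientGroup.eq_one_iff w).2 hw]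
  exact Subgroup.one_mem _

theorem Hc_relIndex {G : Type} [Group G] (W : Subgroup G) [W.Normal] (c : G ⧸ W) :
    W.relIndex (Hc W c) = orderOf c := by
  have h1 : W = (⊥ : Subgroup (G ⧸ W)).comap (QuotientGroup.mk' W) := by
    rw [MonoidHom.comap_bot, QuotientGroup.ker_mk']
  have h2 : (Hc W c).map (QuotientGroup.mk' W) = Subgroup.zpowers c :=
    Subgroup.map_comap_eq_self_of_surjective (QuotientGroup.mk'_surjective W) _
  have h3 : W.relIndex (Hc W c)
      = ((⊥ : Subgroup (G ⧸ W)).comap (QuotientGroup.mk' W)).relIndex (Hc W c) :=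
    congrArg (fun V : Subgroup G => V.relIndex (Hc W c)) h1
  rw [h3, Subgroup.relIndex_comap, h2, Subgroup.relIndex_bot_left, Nat.card_zpowers]

theorem stmt_Hc : Stmt_Hc := by
  intro p _ G _ W _ _
  refine ⟨fun c => ⟨Hc_le W c, Hc_relIndex W c⟩, fun g hg n => ?_⟩
  refine ⟨⟨⟨(g : G ⧸ W), hg⟩, ((1 : G) : G ⧸ Hc W (g : G ⧸ W))⟩, ?_⟩
  have h1 : ((MulAction.toPerm g : Equiv.Perm (setA p W)) ^ n) = MulAction.toPerm (g ^ n) :=
    (map_pow (MulAction.toPermHom G (setA p W)) g n).symm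
  rw [h1, MulAction.toPerm_apply]
  show (⟨⟨(g : G ⧸ W), hg⟩, g ^ n • ((1 : G) : G ⧸ Hc W (g : G ⧸ W))⟩ : setA p W) = _
  congr 1
  rw [MulAction.Quotient.smul_coe, smul_eq_mul, mul_one, QuotientGroup.eq]
  apply Subgroup.mul_mem _ (Subgroup.inv_mem _ ?_) (Subgroup.one_mem _)
  show QuotientGroup.mk' W (g ^ n) ∈ Subgroup.zpowers (g : G ⧸ W)
  rw [map_pow]
  exact Subgroup.pow_mem _ (Subgroup.mem_zpowers _) n

end Fermat.Agent.TW56.Ind

end
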