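/-
TEAM TW56 -> S56, block [IND].  IND-B5 : linear independence of the trace characters.
-/
import Fermat.Agent.TW56.Ind.Interface

set_option autoImplicit false

noncomputable section

namespace Fermat.Agent.TW56.Ind

open _root_.Fermat.Agent.CFT.Pos Module CategoryTheory Polynomial

theorem stmt_LI (h1 : Stmt_traceElt) (h2 : Stmt_dens) : Stmt_LI := by
  classical
  intro p _ G _ W ι _ T hT c hc i
  obtain ⟨φ, hφ, htr⟩ := h1 p G (T i) (hT.good i).1 (hT.simp i)
  obtain ⟨a, ha1, ha2⟩ := h2 (ZMod p) G W ι T hT i φ hφ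
  have key : ∀ j, LinearMap.trace (ZMod p) (T j) (a.sum fun g x => x • (T j).ρ g)
      = ∑ g ∈ a.support, a g * LinearMap.trace (ZMod p) (T j) ((T j).ρ g) := by
    intro j
    rw [Finsupp.sum, map_sum]
    exact Finset.sum_congr rfl fun g _ => by rw [map_smul, smul_eq_mul]
  have h0 : ∑ j, c j * LinearMap.trace (ZMod p) (T j) (a.sum fun g x => x • (T j).ρ g) = 0 := by
    simp only [key, Finset.mul_sum]
    rw [Finset.sum_comm]
    apply Finset.sum_eq_zero
    intro g _
    have := hc g
    calc ∑ j, c j * (a g * LinearMap.trace (ZMod p) (T j) ((T j).ρ g))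
        = a g * ∑ j, c j * LinearMap.trace (ZMod p) (T j) ((T j).ρ g) := by
          rw [Finset.mul_sum]
          exact Finset.sum_congr rfl fun j _ => by ring
      _ = 0 := by rw [this, mul_zero]
  rw [Finset.sum_eq_single i] at h0
  · rw [ha1] at h0
    exact (mul_eq_zero.1 h0).resolve_right htr
  · intro j _ hj
    rw [ha2 j hj, map_zero, mul_zero]
  · intro h; exact absurd (Finset.mem_univ i) h

end Fermat.Agent.TW56.Ind

end
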